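/-
S37 study (helper36), package P-F, part 8: values of functions at places, reduction of constants.

* `val P f : K` : the constant `a` with `f - a ∈ m_P` (junk value `0` if there is none);
  `val_eq`, `val_add`, `val_mul`, ...
* `resA A a` : the class of `a` in the residue field of `A` (junk value `0` outside `A`).
-/
import Mathlib
import Fermat.Prelude.Def_AlgebraicCurve_DivisorClassGroup

set_option autoImplicit false

open AlgebraicCurve

noncomputable section

namespace Fermat.Agent.S37.H36

section val

variable {K : Type*} [Field K] {F : Type*} [Field F] [Algebra K F]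

open scoped Classical in
/-- The value of `f` at the place `P`. -/
def val (P : Place K F) (f : F) : K :=
  if h : ∃ a : K, f - algebraMap K F a ∈ P.toValuationSubring.nonunits then h.choose else 0

theorem const_eq_zero_of_mem_nonunits (P : Place K F) {a : K}
    (h : algebraMap K F a ∈ P.toValuationSubring.nonunits) : a = 0 := by
  by_contra ha
  rw [ValuationSubring.mem_nonunits_iff_or] at h
  rcases h with h | h
  · exact ha (by simpa using h)
  · exact h (by rw [← map_inv₀]; exact P.algebraMap_mem' _)

theorem val_eq (P : Place K F) {f : F} {a : K}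
    (h : f - algebraMap K F a ∈ P.toValuationSubring.nonunits) : val P f = a := by
  have hex : ∃ a : K, f - algebraMap K F a ∈ P.toValuationSubring.nonunits := ⟨a, h⟩
  have hval : val P f = hex.choose := by
    unfold val
    rw [dif_pos hex]
  have hspec := hex.choose_spec
  rw [hval]
  have hdiff : algebraMap K F (a - hex.choose) ∈ P.toValuationSubring.nonunits := by
    have h1 : algebraMap K F (a - hex.choose)
        = (f - algebraMap K F hex.choose) - (f - algebraMap K F a) := by
      rw [map_sub]
      ring
    rw [h1]
    exact P.toValuationSubring.nonunits.sub_mem hspec h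
  exact (sub_eq_zero.mp (const_eq_zero_of_mem_nonunits P hdiff)).symm

theorem val_spec (P : Place K F) {f : F}
    (h : ∃ a : K, f - algebraMap K F a ∈ P.toValuationSubring.nonunits) :
    f - algebraMap K F (val P f) ∈ P.toValuationSubring.nonunits := by
  obtain ⟨a, ha⟩ := h
  rw [val_eq P ha]
  exact ha

theorem val_algebraMap (P : Place K F) (a : K) : val P (algebraMap K F a) = a :=
  val_eq P (by rw [sub_self]; exact P.toValuationSubring.nonunits.zero_mem)

theorem val_zero (P : Place K F) : val P (0 : F) = 0 := by
  have := val_algebraMap P (0 : K)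
  rwa [map_zero] at this

theorem val_one (P : Place K F) : val P (1 : F) = 1 := by
  have := val_algebraMap P (1 : K)
  rwa [map_one] at this

theorem mem_of_sub_mem_nonunits (P : Place K F) {f : F} {a : K}
    (h : f - algebraMap K F a ∈ P.toValuationSubring.nonunits) : f ∈ P.toValuationSubring := by
  have h1 := P.toValuationSubring.add_mem _ _ (P.toValuationSubring.nonunits_subset h)
    (P.algebraMap_mem' a)
  rwa [sub_add_cancel] at h1

theorem val_add (P : Place K F) {f g : F} {a b : K}
    (hf : f - algebraMap K F a ∈ P.toValuationSubring.nonunits)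
    (hg : g - algebraMap K F b ∈ P.toValuationSubring.nonunits) : val P (f + g) = a + b := by
  refine val_eq P ?_
  have h : f + g - algebraMap K F (a + b) = (f - algebraMap K F a) + (g - algebraMap K F b) := by
    rw [map_add]
    ring
  rw [h]
  exact P.toValuationSubring.nonunits.add_mem hf hg

theorem val_sub (P : Place K F) {f g : F} {a b : K}
    (hf : f - algebraMap K F a ∈ P.toValuationSubring.nonunits)
    (hg : g - algebraMap K F b ∈ P.toValuationSubring.nonunits) : val P (f - g) = a - b := by
  refine val_eq P ?_
  have h : f - g - algebraMap K F (a - b) = (f - algebraMap K F a) - (g - algebraMap K F b) := by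
    rw [map_sub]
    ring
  rw [h]
  exact P.toValuationSubring.nonunits.sub_mem hf hg

theorem mul_sub_mem_nonunits (P : Place K F) {f g : F} {a b : K}
    (hf : f - algebraMap K F a ∈ P.toValuationSubring.nonunits)
    (hg : g - algebraMap K F b ∈ P.toValuationSubring.nonunits) :
    f * g - algebraMap K F (a * b) ∈ P.toValuationSubring.nonunits := by
  have h : f * g - algebraMap K F (a * b)
      = (f - algebraMap K F a) * g + (g - algebraMap K F b) * algebraMap K F a := by
    rw [map_mul]
    ring
  rw [h]
  have key : ∀ {e c : F}, e ∈ P.toValuationSubring.nonunits → c ∈ P.toValuationSubring →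
      e * c ∈ P.toValuationSubring.nonunits := by
    intro e c he hc
    rw [P.toValuationSubring.mem_nonunits_iff] at he ⊢
    rw [map_mul]
    have h1 : P.toValuationSubring.valuation c ≤ 1 :=
      (P.toValuationSubring.valuation_le_one_iff c).mpr hc
    calc P.toValuationSubring.valuation e * P.toValuationSubring.valuation c
        ≤ P.toValuationSubring.valuation e * 1 := by gcongr
      _ = P.toValuationSubring.valuation e := mul_one _
      _ < 1 := he
  exact P.toValuationSubring.nonunits.add_mem (key hf (mem_of_sub_mem_nonunits P hg))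
    (key hg (P.algebraMap_mem' a))

theorem val_mul (P : Place K F) {f g : F} {a b : K}
    (hf : f - algebraMap K F a ∈ P.toValuationSubring.nonunits)
    (hg : g - algebraMap K F b ∈ P.toValuationSubring.nonunits) : val P (f * g) = a * b :=
  val_eq P (mul_sub_mem_nonunits P hf hg)

theorem val_const_mul (P : Place K F) (c : K) {f : F} {a : K}
    (hf : f - algebraMap K F a ∈ P.toValuationSubring.nonunits) :
    val P (algebraMap K F c * f) = c * a :=
  val_mul P (by rw [sub_self]; exact P.toValuationSubring.nonunits.zero_mem) hf

theorem val_const_sub (P : Place K F) (c : K) {f : F} {a : K}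
    (hf : f - algebraMap K F a ∈ P.toValuationSubring.nonunits) :
    val P (algebraMap K F c - f) = c - a :=
  val_sub P (by rw [sub_self]; exact P.toValuationSubring.nonunits.zero_mem) hf

end val

section resA

variable {K : Type*} [Field K] (A : ValuationSubring K)

open scoped Classical in
/-- Reduction modulo the maximal ideal of `A`. -/
def resA (a : K) : IsLocalRing.ResidueField A :=
  if h : a ∈ A then IsLocalRing.residue A ⟨a, h⟩ else 0

variable {A}

theorem resA_of_mem {a : K} (h : a ∈ A) : resA A a = IsLocalRing.residue A ⟨a, h⟩ := by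
  unfold resA
  rw [dif_pos h]

theorem resA_zero : resA A (0 : K) = 0 := by
  rw [resA_of_mem A.zero_mem]
  exact map_zero _

theorem resA_one : resA A (1 : K) = 1 := by
  rw [resA_of_mem A.one_mem]
  exact map_one _

theorem resA_add {a b : K} (ha : a ∈ A) (hb : b ∈ A) : resA A (a + b) = resA A a + resA A b := by
  rw [resA_of_mem ha, resA_of_mem hb, resA_of_mem (A.add_mem _ _ ha hb), ← map_add]
  rfl

theorem resA_mul {a b : K} (ha : a ∈ A) (hb : b ∈ A) : resA A (a * b) = resA A a * resA A b := by
  rw [resA_of_mem ha, resA_of_mem hb, resA_of_mem (A.mul_mem _ _ ha hb), ← map_mul]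
  rfl

theorem resA_neg {a : K} (ha : a ∈ A) : resA A (-a) = -resA A a := by
  rw [resA_of_mem ha, resA_of_mem (A.neg_mem _ ha), ← map_neg]
  rfl

theorem resA_sub {a b : K} (ha : a ∈ A) (hb : b ∈ A) : resA A (a - b) = resA A a - resA A b := by
  rw [sub_eq_add_neg, resA_add ha (A.neg_mem _ hb), resA_neg hb, ← sub_eq_add_neg]

theorem resA_pow {a : K} (ha : a ∈ A) (n : ℕ) : resA A (a ^ n) = resA A a ^ n := by
  induction n with
  | zero => rw [pow_zero, pow_zero, resA_one]
  | succ n ih => rw [pow_succ, pow_succ, resA_mul (pow_mem ha n) ha, ih]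

theorem resA_prod {ι : Type*} (s : Finset ι) (f : ι → K) (hf : ∀ i ∈ s, f i ∈ A) :
    resA A (∏ i ∈ s, f i) = ∏ i ∈ s, resA A (f i) := by
  classical
  induction s using Finset.induction_on with
  | empty => rw [Finset.prod_empty, Finset.prod_empty, resA_one]
  | insert j s hj ih =>
    rw [Finset.prod_insert hj, Finset.prod_insert hj,
      resA_mul (hf j (Finset.mem_insert_self j s))
        (prod_mem fun i hi => hf i (Finset.mem_insert_of_mem hi)),
      ih fun i hi => hf i (Finset.mem_insert_of_mem hi)]

theorem resA_eq_zero_iff {a : K} (ha : a ∈ A) : resA A a = 0 ↔ a ∈ A.nonunits := by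
  rw [resA_of_mem ha, IsLocalRing.residue_eq_zero_iff,
    ValuationSubring.mem_nonunits_iff_exists_mem_maximalIdeal]
  exact ⟨fun h => ⟨ha, h⟩, fun ⟨_, h⟩ => h⟩

theorem resA_eq_iff {a b : K} (ha : a ∈ A) (hb : b ∈ A) :
    resA A a = resA A b ↔ a - b ∈ A.nonunits := by
  rw [← resA_eq_zero_iff (sub_mem ha hb), resA_sub ha hb, sub_eq_zero]

theorem resA_surjective (c : IsLocalRing.ResidueField A) : ∃ a : K, a ∈ A ∧ resA A a = c := by
  obtain ⟨⟨a, ha⟩, rfl⟩ := IsLocalRing.residue_surjective c
  exact ⟨a, ha, resA_of_mem ha⟩

end resA

end Fermat.Agent.S37.H36
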