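/-
S37 study (helper36), package P-F, part 10 (formal): the hypothesis `hcore` of
`H65.exists_specialization_of_core` from an additive map `ρ` that kills the generators of the
relation submodule and is injective on `p`-power torsion.

(The set of generators is stable under the Hecke algebra, because the Galois action commutes with
it and the Hecke algebra is commutative; hence the `HeckeAlg`-span is the additive closure.)
-/
import Fermat.Agent.S37.H65.Witness

set_option autoImplicit false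

noncomputable section

namespace Fermat.Agent.S37.H36

open ModularCurve Fermat.Agent.S37.H65

variable {K L : Type*} [Field K] [Field L] [Algebra K L]
variable {J : Type*} [AddCommGroup J] [Module HeckeAlg J]
  [DistribMulAction (L ≃ₐ[K] L) J] [SMulCommClass (L ≃ₐ[K] L) HeckeAlg J]

/-- The generators of the relation submodule are stable under the Hecke algebra. -/
theorem smul_mem_relGens (A : ValuationSubring L) (ℓ : ℕ) (hℓ : ℓ.Prime) (s : L ≃ₐ[K] L)
    (t : HeckeAlg) {y : J} (hy : y ∈ relGens J A ℓ hℓ s) : t • y ∈ relGens J A ℓ hℓ s := by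
  rcases hy with ⟨σ, hσ, x, rfl⟩ | ⟨x, rfl⟩
  · refine Or.inl ⟨σ, hσ, t • x, ?_⟩
    rw [smul_sub, smul_comm σ t x]
  · refine Or.inr ⟨t • x, ?_⟩
    rw [smul_add, smul_sub, smul_comm s t x, smul_comm s t (s • x),
      smul_comm t (heckeGen ⟨ℓ, hℓ⟩) (s • x), smul_comm t ℓ x]

theorem smul_mem_closure_relGens (A : ValuationSubring L) (ℓ : ℕ) (hℓ : ℓ.Prime)
    (s : L ≃ₐ[K] L) (t : HeckeAlg) {y : J}
    (hy : y ∈ AddSubgroup.closure (relGens J A ℓ hℓ s)) :
    t • y ∈ AddSubgroup.closure (relGens J A ℓ hℓ s) := by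
  induction hy using AddSubgroup.closure_induction with
  | mem z hz => exact AddSubgroup.subset_closure (smul_mem_relGens A ℓ hℓ s t hz)
  | zero => rw [smul_zero]; exact zero_mem _
  | add z w _ _ hz hw => rw [smul_add]; exact add_mem hz hw
  | neg z _ hz => rw [smul_neg]; exact neg_mem hz

/-- The relation submodule is the additive closure of its generators. -/
theorem relSubmodule_le_closure (A : ValuationSubring L) (ℓ : ℕ) (hℓ : ℓ.Prime) (s : L ≃ₐ[K] L)
    {x : J} (hx : x ∈ relSubmodule J A ℓ hℓ s) :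
    x ∈ AddSubgroup.closure (relGens J A ℓ hℓ s) := by
  unfold relSubmodule at hx
  induction hx using Submodule.span_induction with
  | mem y hy => exact AddSubgroup.subset_closure hy
  | zero => exact zero_mem _
  | add y z _ _ hy hz => exact add_mem hy hz
  | smul t y _ hy => exact smul_mem_closure_relGens A ℓ hℓ s t hy

omit [SMulCommClass (L ≃ₐ[K] L) HeckeAlg J] in
theorem map_eq_zero_of_mem_closure (A : ValuationSubring L) (ℓ : ℕ) (hℓ : ℓ.Prime)
    (s : L ≃ₐ[K] L) {G : Type*} [AddCommGroup G] (ρ : J →+ G)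
    (h_in : ∀ σ ∈ A.inertiaSubgroupIn K, ∀ x : J, ρ (σ • x) = ρ x)
    (h_es : ∀ x : J, ρ (s • s • x - heckeGen ⟨ℓ, hℓ⟩ • (s • x) + ℓ • x) = 0)
    {y : J} (hy : y ∈ AddSubgroup.closure (relGens J A ℓ hℓ s)) : ρ y = 0 := by
  induction hy using AddSubgroup.closure_induction with
  | mem y hy =>
    rcases hy with ⟨σ, hσ, z, rfl⟩ | ⟨z, rfl⟩
    · rw [map_sub, h_in σ hσ z, sub_self]
    · exact h_es z
  | zero => exact map_zero ρ
  | add y z _ _ hy hz => rw [map_add, hy, hz, add_zero]
  | neg y _ hy => rw [map_neg, hy, neg_zero]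

/-- **Formal reduction**: `hcore` from an additive `ρ`. -/
theorem hcore_of_rho (p : ℕ) (A : ValuationSubring L) (ℓ : ℕ) (hℓ : ℓ.Prime) (s : L ≃ₐ[K] L)
    {G : Type*} [AddCommGroup G] (ρ : J →+ G)
    (h_in : ∀ σ ∈ A.inertiaSubgroupIn K, ∀ x : J, ρ (σ • x) = ρ x)
    (h_es : ∀ x : J, ρ (s • s • x - heckeGen ⟨ℓ, hℓ⟩ • (s • x) + ℓ • x) = 0)
    (h_inj : ∀ x : J, (∃ n : ℕ, p ^ n • x = 0) → ρ x = 0 → x = 0) :
    ∀ x ∈ relSubmodule J A ℓ hℓ s, (∃ n : ℕ, p ^ n • x = 0) → x = 0 :=
  fun x hx htors => h_inj x htors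
    (map_eq_zero_of_mem_closure A ℓ hℓ s ρ h_in h_es (relSubmodule_le_closure A ℓ hℓ s hx))

end Fermat.Agent.S37.H36
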