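/-
S37 study (helper36), package P-F, part 1: one-units of a valuation subring and
"locally one-unit" divisors.

`O` is a valuation subring of a function field `F/K` (think: the Gauss valuation ring), the places
of `F/K` are partitioned into classes by `cls` (think: residue discs of a base function).
`locOne O cls` is the group of divisors that coincide, on every class, with the divisor of a
one-unit of `O`.
-/
import Mathlib
import Fermat.Prelude.Def_AlgebraicCurve_DivisorClassGroup
import Fermat.Agent.S24.H52.AddValMore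

set_option autoImplicit false

open AlgebraicCurve

noncomputable section

namespace Fermat.Agent.S37.H36

variable {F : Type*} [Field F] (O : ValuationSubring F)

/-- `t ≡ 1` modulo the maximal ideal of `O`. -/
def IsOneUnit (t : F) : Prop := t - 1 ∈ O.nonunits

variable {O}

theorem mul_mem_nonunits {a e : F} (ha : a ∈ O) (he : e ∈ O.nonunits) : a * e ∈ O.nonunits := by
  rw [O.mem_nonunits_iff] at he ⊢
  rw [map_mul]
  have h1 : O.valuation a ≤ 1 := (O.valuation_le_one_iff a).mpr ha
  calc O.valuation a * O.valuation e ≤ 1 * O.valuation e := by gcongr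
    _ = O.valuation e := one_mul _
    _ < 1 := he

theorem nonunits_mul_mem {a e : F} (he : e ∈ O.nonunits) (ha : a ∈ O) : e * a ∈ O.nonunits := by
  rw [mul_comm]; exact mul_mem_nonunits ha he

theorem isOneUnit_one : IsOneUnit O (1 : F) := by
  simp [IsOneUnit, O.nonunits.zero_mem]

theorem IsOneUnit.mem {t : F} (ht : IsOneUnit O t) : t ∈ O := by
  have h : t - 1 ∈ O := O.nonunits_subset ht
  have := add_mem h O.one_mem
  simpa using this

theorem IsOneUnit.ne_zero {t : F} (ht : IsOneUnit O t) : t ≠ 0 := by
  rintro rfl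
  have h : (-1 : F) ∈ O.nonunits := by simpa [IsOneUnit] using ht
  have h1 : (1 : F) ∈ O.nonunits := by simpa using O.nonunits.neg_mem h
  rw [O.mem_nonunits_iff, map_one] at h1
  exact lt_irrefl _ h1

theorem IsOneUnit.valuation_eq_one {t : F} (ht : IsOneUnit O t) : O.valuation t = 1 := by
  have h1 : O.valuation (t - 1) < 1 := O.mem_nonunits_iff.mp ht
  have h2 : O.valuation (1 : F) = 1 := map_one _
  have : O.valuation (t - 1 + 1) = O.valuation (1 : F) := by
    rw [add_comm]
    exact Valuation.map_add_eq_of_lt_left _ (by rw [h2]; exact h1)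
  simpa using this

theorem IsOneUnit.inv_mem {t : F} (ht : IsOneUnit O t) : t⁻¹ ∈ O := by
  rw [← O.valuation_le_one_iff, map_inv₀, ht.valuation_eq_one, inv_one]

theorem IsOneUnit.mul {t t' : F} (ht : IsOneUnit O t) (ht' : IsOneUnit O t') :
    IsOneUnit O (t * t') := by
  have h : t * t' - 1 = t * (t' - 1) + (t - 1) := by ring
  rw [IsOneUnit, h]
  exact O.nonunits.add_mem (mul_mem_nonunits ht.mem ht') ht

theorem IsOneUnit.inv {t : F} (ht : IsOneUnit O t) : IsOneUnit O t⁻¹ := by
  have h : t⁻¹ - 1 = t⁻¹ * (-(t - 1)) := by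
    field_simp [ht.ne_zero]
    ring
  rw [IsOneUnit, h]
  exact mul_mem_nonunits ht.inv_mem (O.nonunits.neg_mem ht)

theorem IsOneUnit.div {t t' : F} (ht : IsOneUnit O t) (ht' : IsOneUnit O t') :
    IsOneUnit O (t / t') := by
  rw [div_eq_mul_inv]; exact ht.mul ht'.inv

/-- A unit of `O` plus a nonunit is the unit times a one-unit. -/
theorem isOneUnit_add_div {y e : F} (hy : y⁻¹ ∈ O) (hy0 : y ≠ 0) (he : e ∈ O.nonunits) :
    IsOneUnit O ((y + e) / y) := by
  have h : (y + e) / y - 1 = y⁻¹ * e := by
    field_simp
    ring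
  rw [IsOneUnit, h]
  exact mul_mem_nonunits hy he

/-- An element of `O` that is not a nonunit is a unit. -/
theorem inv_mem_of_not_mem_nonunits {y : F} (hy : y ∉ O.nonunits) : y⁻¹ ∈ O := by
  by_contra h
  exact hy (O.mem_nonunits_iff_or.mpr (Or.inr h))

end Fermat.Agent.S37.H36
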