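/-
S37 study (helper36), package P-F, part 2: the abstract core.

`RedHyp A O cls` : the exports of Program J (S18) that S37 needs, in the shape of helper29's
`ClassHyp` (+ the tube parameter `tau`).  No reduction map, no place of the special fibre.

* `locOne O cls`      : divisors that are, on every class, the divisor of a one-unit.
* `exists_const_mul_isOneUnit` (CONS) : a function whose divisor is locally one-unit is a constant
  times a one-unit.
* `isPrincipal_of_locOne` (INJ) : if `m D` is principal, `D ∈ Prin + locOne` and Theorem T holds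
  for the exponent `m`, then `D` is principal.
-/
import Fermat.Agent.S37.H36.OneUnit

set_option autoImplicit false

open AlgebraicCurve

noncomputable section

namespace Fermat.Agent.S37.H36

open Fermat.Agent.S24.H52

variable {K : Type*} [Field K] (A : ValuationSubring K) {F : Type*} [Field F] [Algebra K F]
  (O : ValuationSubring F)

/-- The exports of Program J needed for S37. -/
structure RedHyp {𝔇 : Type*} (cls : Place K F → 𝔇) : Prop where
  /-- `O ∩ K = A` -/
  mem_iff : ∀ a : K, algebraMap K F a ∈ O ↔ a ∈ A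
  /-- the value group of `O` is that of `A` -/
  scale : ∀ f : F, f ≠ 0 → ∃ c : K, c ≠ 0 ∧ algebraMap K F c * f ∈ O ∧ (algebraMap K F c * f)⁻¹ ∈ O
  /-- every place has residue field `K` -/
  value : ∀ (P : Place K F) (f : F), f ∈ P.toValuationSubring →
    ∃ a : K, f - algebraMap K F a ∈ P.toValuationSubring.nonunits
  /-- principal divisors exist and have degree `0` -/
  prin : ∀ f : F, f ≠ 0 → ∃ D : Place K F →₀ ℤ, (∀ P, D P = P.ord f) ∧ (D.sum fun _ n => n) = 0
  /-- infinitely many classes are inhabited -/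
  inf_classes : (Set.range cls).Infinite
  /-- one-units have degree `0` on every class -/
  one : ∀ y : F, IsOneUnit O y → ∀ D : Place K F →₀ ℤ, (∀ P, D P = P.ord y) →
    ∀ d : 𝔇, Finsupp.mapDomain cls D d = 0
  /-- tube parameters: a unit of `O` with exactly one zero on the class of `P`, simple, at `P`,
  and no pole on that class -/
  tau : ∀ P : Place K F, ∃ τ : F, τ ∈ O ∧ τ⁻¹ ∈ O ∧ P.ord τ = 1 ∧
    ∀ P' : Place K F, cls P' = cls P → P' ≠ P → P'.ord τ = 0

section ord

variable (P : Place K F)

theorem ord_algebraMap (a : K) : P.ord (algebraMap K F a) = 0 := by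
  by_cases ha : a = 0
  · simp [ha]
  have h1 : 0 ≤ P.ord (algebraMap K F a) := ord_nonneg_of_mem P (P.algebraMap_mem' a)
  have h2 : 0 ≤ P.ord (algebraMap K F a)⁻¹ := by
    rw [← map_inv₀]; exact ord_nonneg_of_mem P (P.algebraMap_mem' a⁻¹)
  rw [P.ord_inv] at h2
  omega

theorem ord_const_mul (a : K) (ha : a ≠ 0) (f : F) :
    P.ord (algebraMap K F a * f) = P.ord f := by
  by_cases hf : f = 0
  · simp [hf]
  rw [P.ord_mul (by simpa using ha) hf, ord_algebraMap, zero_add]

theorem ord_div {f g : F} (hf : f ≠ 0) (hg : g ≠ 0) : P.ord (f / g) = P.ord f - P.ord g := by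
  rw [div_eq_mul_inv, P.ord_mul hf (inv_ne_zero hg), P.ord_inv]; ring

theorem ord_pow (f : F) (n : ℕ) : P.ord (f ^ n) = n * P.ord f := by
  have := P.ord_zpow f (n : ℤ)
  simpa using this

/-- membership in the maximal ideal of a place, in terms of `ord`. -/
theorem mem_nonunits_iff_ord_pos {f : F} (hf : f ≠ 0) :
    f ∈ P.toValuationSubring.nonunits ↔ 0 < P.ord f := by
  rw [ValuationSubring.mem_nonunits_iff_or]
  constructor
  · rintro (h | h)
    · exact absurd h hf
    · by_contra hle
      apply h
      rw [mem_iff_ord_nonneg P (inv_ne_zero hf), P.ord_inv]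
      omega
  · intro h
    right
    rw [mem_iff_ord_nonneg P (inv_ne_zero hf), P.ord_inv]
    omega

theorem mem_of_ord_nonneg {f : F} (h : 0 ≤ P.ord f) : f ∈ P.toValuationSubring := by
  by_cases hf : f = 0
  · rw [hf]; exact P.toValuationSubring.zero_mem
  · exact (mem_iff_ord_nonneg P hf).mpr h

theorem ord_nonneg_of_mem' {f : F} (h : f ∈ P.toValuationSubring) : 0 ≤ P.ord f :=
  ord_nonneg_of_mem P h

end ord

section mapDomain

variable {α 𝔇 : Type*} (cls : α → 𝔇)

open Classical in
theorem mapDomain_apply_eq (D : α →₀ ℤ) (d : 𝔇) :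
    Finsupp.mapDomain cls D d = ∑ P ∈ D.support, if cls P = d then D P else 0 := by
  simp [Finsupp.mapDomain, Finsupp.sum, Finsupp.single_apply]

theorem mapDomain_nonneg (D : α →₀ ℤ) (d : 𝔇) (h : ∀ P, cls P = d → 0 ≤ D P) :
    0 ≤ Finsupp.mapDomain cls D d := by
  classical
  rw [mapDomain_apply_eq]
  refine Finset.sum_nonneg fun P _ => ?_
  split_ifs with hP
  · exact h P hP
  · exact le_rfl

theorem mapDomain_pos (D : α →₀ ℤ) (d : 𝔇) (h : ∀ P, cls P = d → 0 ≤ D P) (P₀ : α)
    (h₀ : cls P₀ = d) (hpos : 0 < D P₀) : 0 < Finsupp.mapDomain cls D d := by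
  classical
  rw [mapDomain_apply_eq]
  have hmem : P₀ ∈ D.support := Finsupp.mem_support_iff.mpr hpos.ne'
  have hle : (if cls P₀ = d then D P₀ else 0) ≤ ∑ P ∈ D.support, if cls P = d then D P else 0 := by
    refine Finset.single_le_sum (f := fun P => if cls P = d then D P else 0) (fun P _ => ?_) hmem
    show 0 ≤ if cls P = d then D P else 0
    split_ifs with hP
    · exact h P hP
    · exact le_rfl
  rw [if_pos h₀] at hle
  omega

/-- if a divisor is `≥ 0` on a class and has degree `0` there, it vanishes on the class -/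
theorem eq_zero_of_mapDomain_eq_zero (D : α →₀ ℤ) (d : 𝔇) (h : ∀ P, cls P = d → 0 ≤ D P)
    (h0 : Finsupp.mapDomain cls D d = 0) (P₀ : α) (h₀ : cls P₀ = d) : D P₀ = 0 := by
  by_contra hne
  have hpos : 0 < D P₀ := lt_of_le_of_ne (h P₀ h₀) (Ne.symm hne)
  have := mapDomain_pos cls D d h P₀ h₀ hpos
  omega

theorem sum_mapDomain (D : α →₀ ℤ) :
    ((Finsupp.mapDomain cls D).sum fun _ n => n) = D.sum fun _ n => n :=
  Finsupp.sum_mapDomain_index_addMonoidHom (fun _ => AddMonoidHom.id ℤ)

theorem mapDomain_sub_apply (D E : α →₀ ℤ) (d : 𝔇) :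
    Finsupp.mapDomain cls (D - E) d = Finsupp.mapDomain cls D d - Finsupp.mapDomain cls E d := by
  have h := map_sub (Finsupp.mapDomain.addMonoidHom (M := ℤ) cls) D E
  have h' := DFunLike.congr_fun h d
  simpa using h'

end mapDomain

end Fermat.Agent.S37.H36
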