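/-
S37 study (helper36), package P-F, part 3: "locally one-unit" divisors and values of functions
at the places of a class (Lemma V from `one`).

`locOne O cls` : the group of divisors that coincide, on every class, with the divisor of a
one-unit of `O` (the one-unit may depend on the class).
-/
import Fermat.Agent.S37.H36.Core

set_option autoImplicit false

open AlgebraicCurve

noncomputable section

namespace Fermat.Agent.S37.H36

open Fermat.Agent.S24.H52

variable {K : Type*} [Field K] {A : ValuationSubring K} {F : Type*} [Field F] [Algebra K F]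
  {O : ValuationSubring F} {𝔇 : Type*} {cls : Place K F → 𝔇}

variable (O cls) in
/-- Divisors that are, on every class, the divisor of a one-unit of `O`. -/
def locOne : AddSubgroup (Place K F →₀ ℤ) where
  carrier := {D | ∀ d : 𝔇, ∃ t : F, IsOneUnit O t ∧ ∀ P : Place K F, cls P = d → D P = P.ord t}
  zero_mem' := fun _ => ⟨1, isOneUnit_one, fun P _ => by simp⟩
  add_mem' := by
    intro D E hD hE d
    obtain ⟨t, ht, h⟩ := hD d
    obtain ⟨t', ht', h'⟩ := hE d
    refine ⟨t * t', ht.mul ht', fun P hP => ?_⟩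
    rw [Finsupp.add_apply, h P hP, h' P hP, P.ord_mul ht.ne_zero ht'.ne_zero]
  neg_mem' := by
    intro D hD d
    obtain ⟨t, ht, h⟩ := hD d
    refine ⟨t⁻¹, ht.inv, fun P hP => ?_⟩
    rw [Finsupp.neg_apply, h P hP, P.ord_inv]

theorem mem_locOne {D : Place K F →₀ ℤ} :
    D ∈ locOne O cls ↔
      ∀ d : 𝔇, ∃ t : F, IsOneUnit O t ∧ ∀ P : Place K F, cls P = d → D P = P.ord t :=
  Iff.rfl

/-- A divisor that is the divisor of a one-unit on one class and vanishes on the others. -/
theorem mem_locOne_of_class {D : Place K F →₀ ℤ} (d₀ : 𝔇) (t : F) (ht : IsOneUnit O t)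
    (h : ∀ P : Place K F, cls P = d₀ → D P = P.ord t)
    (h' : ∀ P : Place K F, cls P ≠ d₀ → D P = 0) : D ∈ locOne O cls := by
  classical
  intro d
  by_cases hd : d = d₀
  · subst hd
    exact ⟨t, ht, h⟩
  · refine ⟨1, isOneUnit_one, fun P hP => ?_⟩
    rw [Place.ord_one]
    exact h' P (by rw [hP]; exact hd)

theorem algebraMap_mem_nonunits_iff (hR : RedHyp A O cls) (b : K) :
    algebraMap K F b ∈ O.nonunits ↔ b ∈ A.nonunits := by
  rw [O.mem_nonunits_iff_or, A.mem_nonunits_iff_or, ← map_inv₀, hR.mem_iff, map_eq_zero]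

/-- The value of a function at a place of a class where it has no pole: if `a⁻¹ f` is in the
maximal ideal of `O` then `f` does not take the value `a` on the class. -/
theorem not_val_of_inv_mul_mem_nonunits (hR : RedHyp A O cls) (P₀ : Place K F) {f : F}
    (hpole : ∀ P : Place K F, cls P = cls P₀ → 0 ≤ P.ord f) (a : K) (ha0 : a ≠ 0)
    (hsmall : algebraMap K F a⁻¹ * f ∈ O.nonunits) :
    f - algebraMap K F a ∉ P₀.toValuationSubring.nonunits := by
  intro hval
  set t : F := 1 - algebraMap K F a⁻¹ * f with ht_def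
  have ht : IsOneUnit O t := by
    have h : t - 1 = -(algebraMap K F a⁻¹ * f) := by rw [ht_def]; ring
    rw [IsOneUnit, h]
    exact O.nonunits.neg_mem hsmall
  have ht0 : t ≠ 0 := ht.ne_zero
  have hta : t = algebraMap K F (-a⁻¹) * (f - algebraMap K F a) := by
    rw [ht_def, map_neg, map_inv₀]
    have : algebraMap K F a ≠ 0 := by simpa using ha0
    field_simp
    ring
  have htP₀ : 0 < P₀.ord t := by
    rw [← mem_nonunits_iff_ord_pos P₀ ht0, hta]
    exact mul_mem_nonunits (P₀.algebraMap_mem' _) hval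
  have htP : ∀ P : Place K F, cls P = cls P₀ → 0 ≤ P.ord t := by
    intro P hP
    refine ord_nonneg_of_mem P ?_
    rw [ht_def]
    exact sub_mem (one_mem _) (mul_mem (P.algebraMap_mem' _) (mem_of_ord_nonneg P (hpole P hP)))
  obtain ⟨D, hD, -⟩ := hR.prin t ht0
  have h0 := hR.one t ht D hD (cls P₀)
  have hpos := mapDomain_pos cls D (cls P₀) (fun P hP => by rw [hD]; exact htP P hP) P₀ rfl
    (by rw [hD]; exact htP₀)
  omega

/-- **Lemma V.** A function of `O` without poles on the class of `P₀` takes a value in `A`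
at `P₀`. -/
theorem val_mem (hR : RedHyp A O cls) (P₀ : Place K F) {f : F} (hf : f ∈ O)
    (hpole : ∀ P : Place K F, cls P = cls P₀ → 0 ≤ P.ord f) (a : K)
    (ha : f - algebraMap K F a ∈ P₀.toValuationSubring.nonunits) : a ∈ A := by
  by_contra haA
  have ha0 : a ≠ 0 := by
    rintro rfl
    exact haA A.zero_mem
  have hinv : a⁻¹ ∈ A.nonunits := by
    rw [A.mem_nonunits_iff_or, inv_inv]
    exact Or.inr haA
  refine not_val_of_inv_mul_mem_nonunits hR P₀ hpole a ha0 ?_ ha
  exact nonunits_mul_mem ((algebraMap_mem_nonunits_iff hR _).mpr hinv) hf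

/-- **Lemma V, maximal ideal.** A function of the maximal ideal of `O` without poles on the class
of `P₀` takes a value in the maximal ideal of `A` at `P₀`. -/
theorem val_mem_nonunits (hR : RedHyp A O cls) (P₀ : Place K F) {f : F} (hf : f ∈ O.nonunits)
    (hpole : ∀ P : Place K F, cls P = cls P₀ → 0 ≤ P.ord f) (a : K)
    (ha : f - algebraMap K F a ∈ P₀.toValuationSubring.nonunits) : a ∈ A.nonunits := by
  by_contra haA
  rw [A.mem_nonunits_iff_or, not_or, not_not] at haA
  obtain ⟨ha0, hinv⟩ := haA
  refine not_val_of_inv_mul_mem_nonunits hR P₀ hpole a ha0 ?_ ha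
  exact mul_mem_nonunits ((hR.mem_iff _).mpr hinv) hf

end Fermat.Agent.S37.H36
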