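/-
S37 study (helper36), package P-F, part 7: pairs of places that differ by a locally one-unit
divisor.

* `single_sub_single_mem_locOne` : if a tube parameter `τ` at `P` takes at `Q` (same class) a
  value in the maximal ideal of `A`, then `Q - P ∈ locOne` (one-unit `1 - τ(Q)/τ`, uses `one`).
* `smul_single_sub_single_mem_locOne`, `smul_sub_mem_locOne` (INERTIA): a semilinear automorphism
  preserving the classes and acting trivially on the residue field of `O` moves every divisor by an
  element of `locOne` (one-unit `g(τ)/τ`).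
-/
import Fermat.Agent.S37.H36.LocOne
import Fermat.Prelude.Def_AlgebraicCurve_BaseChangeGalois

set_option autoImplicit false

open AlgebraicCurve

noncomputable section

namespace Fermat.Agent.S37.H36

open Fermat.Agent.S24.H52

variable {K : Type*} [Field K] {A : ValuationSubring K} {F : Type*} [Field F] [Algebra K F]
  {O : ValuationSubring F} {𝔇 : Type*} {cls : Place K F → 𝔇}

/-- **Congruent places.** `τ` is a unit of `O` with a simple zero at `P` and no other zero or pole
on the class of `P`; if `τ(Q) ∈ m_A` for a place `Q` of the class, then `Q - P ∈ locOne`. -/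
theorem single_sub_single_mem_locOne (hR : RedHyp A O cls) (P Q : Place K F)
    (hcls : cls Q = cls P) (τ : F) (hτO' : τ⁻¹ ∈ O) (hτP : P.ord τ = 1)
    (hτ : ∀ P' : Place K F, cls P' = cls P → P' ≠ P → P'.ord τ = 0)
    (a : K) (ha : a ∈ A.nonunits)
    (hval : τ - algebraMap K F a ∈ Q.toValuationSubring.nonunits) :
    Finsupp.single Q (1 : ℤ) - Finsupp.single P 1 ∈ locOne O cls := by
  classical
  by_cases hQP : Q = P
  · subst hQP
    rw [sub_self]
    exact zero_mem _
  have hτ0 : τ ≠ 0 := by
    rintro rfl
    rw [Place.ord_zero] at hτP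
    exact zero_ne_one hτP
  have hτQ : Q.ord τ = 0 := hτ Q hcls hQP
  have ha0 : a ≠ 0 := by
    rintro rfl
    rw [map_zero, sub_zero, mem_nonunits_iff_ord_pos Q hτ0, hτQ] at hval
    exact lt_irrefl _ hval
  have haF : algebraMap K F a ≠ 0 := by simpa using ha0
  set t : F := (τ - algebraMap K F a) / τ with ht_def
  have ht : IsOneUnit O t := by
    have h : t - 1 = -(algebraMap K F a * τ⁻¹) := by
      rw [ht_def]
      field_simp
      ring
    rw [IsOneUnit, h]
    exact O.nonunits.neg_mem (nonunits_mul_mem ((algebraMap_mem_nonunits_iff hR a).mpr ha) hτO')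
  have hnum0 : τ - algebraMap K F a ≠ 0 := by
    intro h0
    apply ht.ne_zero
    rw [ht_def, h0, zero_div]
  have hnumP : P.ord (τ - algebraMap K F a) = 0 := by
    have h := (isAddVal_ord P).map_add_eq_of_lt (f := -algebraMap K F a) (g := τ)
      (neg_ne_zero.mpr haF) (Or.inr (by
        rw [← map_neg, ord_algebraMap, hτP]
        exact zero_lt_one))
    have h2 : -algebraMap K F a + τ = τ - algebraMap K F a := by ring
    rw [h2] at h
    rw [h.2, ← map_neg, ord_algebraMap]
  have hnum : ∀ P' : Place K F, cls P' = cls P → 0 ≤ P'.ord (τ - algebraMap K F a) := by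
    intro P' hP'
    refine ord_nonneg_of_mem P' (sub_mem (mem_of_ord_nonneg P' ?_) (P'.algebraMap_mem' a))
    by_cases h : P' = P
    · rw [h, hτP]
      exact zero_le_one
    · rw [hτ P' hP' h]
  have hnumQ : 0 < Q.ord (τ - algebraMap K F a) := (mem_nonunits_iff_ord_pos Q hnum0).mp hval
  obtain ⟨Dt, hDt, -⟩ := hR.prin t ht.ne_zero
  have hone := hR.one t ht Dt hDt (cls P)
  have hord : ∀ P' : Place K F, P'.ord t = P'.ord (τ - algebraMap K F a) - P'.ord τ :=
    fun P' => ord_div P' hnum0 hτ0
  set D' : Place K F →₀ ℤ := Dt + Finsupp.single P 1 - Finsupp.single Q 1 with hD'_def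
  have hD'apply : ∀ P' : Place K F, D' P' = P'.ord (τ - algebraMap K F a) - P'.ord τ
      + (if P = P' then 1 else 0) - (if Q = P' then 1 else 0) := by
    intro P'
    rw [hD'_def, Finsupp.sub_apply, Finsupp.add_apply, hDt, hord, Finsupp.single_apply,
      Finsupp.single_apply]
  have hD'nn : ∀ P' : Place K F, cls P' = cls P → 0 ≤ D' P' := by
    intro P' hP'
    rw [hD'apply]
    by_cases h1 : P = P'
    · subst h1
      rw [if_pos rfl, if_neg hQP, hnumP, hτP]
      norm_num
    · rw [if_neg h1, hτ P' hP' (Ne.symm h1)]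
      by_cases h2 : Q = P'
      · subst h2
        rw [if_pos rfl]
        omega
      · rw [if_neg h2]
        have := hnum P' hP'
        omega
  have hD'deg : Finsupp.mapDomain cls D' (cls P) = 0 := by
    rw [hD'_def, mapDomain_sub_apply, Finsupp.mapDomain_add, Finsupp.add_apply, hone,
      Finsupp.mapDomain_single, Finsupp.mapDomain_single, hcls, Finsupp.single_eq_same]
    norm_num
  have hD'0 : ∀ P' : Place K F, cls P' = cls P → D' P' = 0 := fun P' hP' =>
    eq_zero_of_mapDomain_eq_zero cls D' (cls P) hD'nn hD'deg P' hP'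
  refine mem_locOne_of_class (cls P) t ht (fun P' hP' => ?_) (fun P' hP' => ?_)
  · have h := hD'0 P' hP'
    rw [hD'apply] at h
    rw [Finsupp.sub_apply, Finsupp.single_apply, Finsupp.single_apply, hord]
    linarith
  · have h1 : Q ≠ P' := fun h => hP' (by rw [← h, hcls])
    have h2 : P ≠ P' := fun h => hP' (by rw [← h])
    rw [Finsupp.sub_apply, Finsupp.single_apply, Finsupp.single_apply, if_neg h1, if_neg h2,
      sub_zero]

/-- **INERTIA**, one place. -/
theorem smul_single_sub_single_mem_locOne (hR : RedHyp A O cls) (g : SemilinearAut K F)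
    (hcls : ∀ P : Place K F, cls (g • P) = cls P)
    (hres : ∀ f : F, f ∈ O → f⁻¹ ∈ O → g • f - f ∈ O.nonunits) (P : Place K F) :
    Finsupp.single (g • P) (1 : ℤ) - Finsupp.single P 1 ∈ locOne O cls := by
  classical
  obtain ⟨τ, hτO, hτO', hτP, hτ⟩ := hR.tau P
  have hτ0 : τ ≠ 0 := by
    rintro rfl
    rw [Place.ord_zero] at hτP
    exact zero_ne_one hτP
  have hgτ0 : g • τ ≠ 0 := by
    rw [SemilinearAut.smul_def]
    exact (map_ne_zero_iff _ (SemilinearAut.toRingAut g).injective).mpr hτ0
  set t : F := (g • τ) / τ with ht_def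
  have ht : IsOneUnit O t := by
    have h : t - 1 = τ⁻¹ * (g • τ - τ) := by
      rw [ht_def]
      field_simp
    rw [IsOneUnit, h]
    exact mul_mem_nonunits hτO' (hres τ hτO hτO')
  have hordg : ∀ P' : Place K F, P'.ord (g • τ) = (g⁻¹ • P').ord τ := by
    intro P'
    have h := SemilinearAut.ord_smul g (g⁻¹ • P') τ
    rwa [smul_inv_smul] at h
  have hclsinv : ∀ P' : Place K F, cls (g⁻¹ • P') = cls P' := by
    intro P'
    have h := hcls (g⁻¹ • P')
    rw [smul_inv_smul] at h
    exact h.symm
  refine mem_locOne_of_class (cls P) t ht (fun P' hP' => ?_) (fun P' hP' => ?_)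
  · have e1 : (g⁻¹ • P').ord τ = if g • P = P' then 1 else 0 := by
      split_ifs with h
      · rw [← h, inv_smul_smul, hτP]
      · exact hτ _ (by rw [hclsinv, hP']) (fun h' => h (by rw [← h', smul_inv_smul]))
    have e2 : P'.ord τ = if P = P' then 1 else 0 := by
      split_ifs with h
      · rw [← h, hτP]
      · exact hτ _ hP' (Ne.symm h)
    rw [ht_def, ord_div P' hgτ0 hτ0, hordg, Finsupp.sub_apply, Finsupp.single_apply,
      Finsupp.single_apply, e1, e2]
  · have h1 : g • P ≠ P' := fun h => hP' (by rw [← h, hcls])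
    have h2 : P ≠ P' := fun h => hP' (by rw [← h])
    rw [Finsupp.sub_apply, Finsupp.single_apply, Finsupp.single_apply, if_neg h1, if_neg h2,
      sub_zero]

/-- **INERTIA**, all divisors. -/
theorem smul_sub_mem_locOne (hR : RedHyp A O cls) (g : SemilinearAut K F)
    (hcls : ∀ P : Place K F, cls (g • P) = cls P)
    (hres : ∀ f : F, f ∈ O → f⁻¹ ∈ O → g • f - f ∈ O.nonunits) (D : Divisor K F) :
    g • D - D ∈ locOne O cls := by
  induction D using Finsupp.induction with
  | zero =>
    rw [smul_zero, sub_zero]
    exact zero_mem _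
  | single_add P n D _ _ ih =>
    have h1 : g • (Finsupp.single P n : Divisor K F) - Finsupp.single P n
        = n • (Finsupp.single (g • P) (1 : ℤ) - Finsupp.single P 1) := by
      rw [SemilinearAut.smul_single, smul_sub, Finsupp.smul_single, Finsupp.smul_single,
        smul_eq_mul, mul_one]
    have h2 : g • ((Finsupp.single P n : Divisor K F) + D) - (Finsupp.single P n + D)
        = (g • (Finsupp.single P n : Divisor K F) - Finsupp.single P n) + (g • D - D) := by
      rw [smul_add]
      abel
    rw [h2, h1]
    exact add_mem (zsmul_mem (smul_single_sub_single_mem_locOne hR g hcls hres P) n) ih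

end Fermat.Agent.S37.H36
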