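/-
S37 study (helper36), package P-F, part 4: CONS.

`exists_const_mul_isOneUnit` : a function whose divisor is locally one-unit is a constant times a
one-unit of `O`.  (Degree count with `one`; replaces "the reduction of a function with trivial
reduced divisor is constant".)
-/
import Fermat.Agent.S37.H36.LocOne

set_option autoImplicit false

open AlgebraicCurve

noncomputable section

namespace Fermat.Agent.S37.H36

open Fermat.Agent.S24.H52

variable {K : Type*} [Field K] {A : ValuationSubring K} {F : Type*} [Field F] [Algebra K F]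
  {O : ValuationSubring F} {𝔇 : Type*} {cls : Place K F → 𝔇}

theorem sum_pos_of_nonneg (M : 𝔇 →₀ ℤ) (h : ∀ d, 0 ≤ M d) (d₀ : 𝔇) (h₀ : 0 < M d₀) :
    0 < M.sum fun _ n => n := by
  have hmem : d₀ ∈ M.support := Finsupp.mem_support_iff.mpr h₀.ne'
  have h1 := Finset.single_le_sum (f := fun d => M d) (fun d _ => h d) hmem
  have h2 : (M.sum fun _ n => n) = ∑ d ∈ M.support, M d := rfl
  rw [h2]
  exact lt_of_lt_of_le h₀ h1

/-- **CONS.** If the divisor of `u` is locally the divisor of one-units, then `u` is a constant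
times a one-unit. -/
theorem exists_const_mul_isOneUnit (hR : RedHyp A O cls) {u : F} (hu : u ≠ 0)
    (D : Place K F →₀ ℤ) (hD : ∀ P, D P = P.ord u) (hloc : D ∈ locOne O cls) :
    ∃ c : K, c ≠ 0 ∧ IsOneUnit O (algebraMap K F c * u) := by
  classical
  obtain ⟨c₁, hc₁, hu'O, hu'O'⟩ := hR.scale u hu
  set u' : F := algebraMap K F c₁ * u with hu'_def
  have hu'0 : u' ≠ 0 := mul_ne_zero (by simpa using hc₁) hu
  have hD' : ∀ P, D P = P.ord u' := fun P => by rw [hD, hu'_def, ord_const_mul P c₁ hc₁]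
  -- a class where `D` vanishes
  obtain ⟨d₀, hd₀, hd₀'⟩ := hR.inf_classes.exists_notMem_finset (D.support.image cls)
  obtain ⟨P₀, rfl⟩ := hd₀
  have hvan : ∀ P, cls P = cls P₀ → D P = 0 := by
    intro P hP
    by_contra hne
    exact hd₀' (Finset.mem_image.mpr ⟨P, Finsupp.mem_support_iff.mpr hne, hP⟩)
  have hu'P : ∀ P, cls P = cls P₀ → P.ord u' = 0 := fun P hP => by rw [← hD', hvan P hP]
  -- the value `a` of `u'` at `P₀` is a unit of `A`
  obtain ⟨a, ha⟩ := hR.value P₀ u' (mem_of_ord_nonneg P₀ (hu'P P₀ rfl).ge)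
  have ha0 : a ≠ 0 := by
    rintro rfl
    rw [map_zero, sub_zero, mem_nonunits_iff_ord_pos P₀ hu'0, hu'P P₀ rfl] at ha
    exact lt_irrefl _ ha
  have haF : algebraMap K F a ≠ 0 := by simpa using ha0
  have haA' : a⁻¹ ∈ A := by
    refine val_mem hR P₀ hu'O' (fun P hP => by rw [P.ord_inv, hu'P P hP, neg_zero]) a⁻¹ ?_
    have h : u'⁻¹ - algebraMap K F a⁻¹
        = (-(u'⁻¹ * algebraMap K F a⁻¹)) * (u' - algebraMap K F a) := by
      rw [map_inv₀]
      field_simp
      ring
    rw [h]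
    refine mul_mem_nonunits ?_ ha
    refine neg_mem (mul_mem ?_ (P₀.algebraMap_mem' _))
    exact mem_of_ord_nonneg P₀ (by rw [P₀.ord_inv, hu'P P₀ rfl, neg_zero])
  refine ⟨a⁻¹ * c₁, mul_ne_zero (inv_ne_zero ha0) hc₁, ?_⟩
  set y : F := algebraMap K F a⁻¹ * u' - 1 with hy_def
  have hyeq : algebraMap K F (a⁻¹ * c₁) * u - 1 = y := by
    rw [hy_def, hu'_def, map_mul]
    ring
  show algebraMap K F (a⁻¹ * c₁) * u - 1 ∈ O.nonunits
  rw [hyeq]
  by_contra hynon
  have hyinv : y⁻¹ ∈ O := inv_mem_of_not_mem_nonunits hynon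
  have hy0 : y ≠ 0 := fun h => hynon (h ▸ O.nonunits.zero_mem)
  obtain ⟨Dy, hDy, hdeg⟩ := hR.prin y hy0
  -- `y` vanishes at `P₀` and has no pole on its class
  have hyP₀ : 0 < P₀.ord y := by
    rw [← mem_nonunits_iff_ord_pos P₀ hy0]
    have h : y = algebraMap K F a⁻¹ * (u' - algebraMap K F a) := by
      rw [hy_def, map_inv₀]
      field_simp
    rw [h]
    exact mul_mem_nonunits (P₀.algebraMap_mem' _) ha
  have hyP : ∀ P, cls P = cls P₀ → 0 ≤ P.ord y := by
    intro P hP
    refine ord_nonneg_of_mem P ?_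
    rw [hy_def]
    exact sub_mem (mul_mem (P.algebraMap_mem' _) (mem_of_ord_nonneg P (hu'P P hP).ge)) (one_mem _)
  have hpos : 0 < Finsupp.mapDomain cls Dy (cls P₀) :=
    mapDomain_pos cls Dy (cls P₀) (fun P hP => by rw [hDy]; exact hyP P hP) P₀ rfl
      (by rw [hDy]; exact hyP₀)
  -- on every class the degree of `div y` is `≥ 0`
  have hnonneg : ∀ d, 0 ≤ Finsupp.mapDomain cls Dy d := by
    intro d
    obtain ⟨t, ht, htD⟩ := hloc d
    set w : F := u' / t with hw_def
    have hwO : w ∈ O := by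
      rw [hw_def, div_eq_mul_inv]
      exact mul_mem hu'O ht.inv_mem
    have hwP : ∀ P, cls P = d → P.ord w = 0 := by
      intro P hP
      rw [hw_def, ord_div P hu'0 ht.ne_zero, ← hD', htD P hP, sub_self]
    set y' : F := algebraMap K F a⁻¹ * w - 1 with hy'_def
    set ε : F := algebraMap K F a⁻¹ * w * (t - 1) with hε_def
    have hε : ε ∈ O.nonunits := mul_mem_nonunits (mul_mem ((hR.mem_iff _).mpr haA') hwO) ht
    have hy' : y' = y - ε := by
      rw [hy_def, hy'_def, hε_def, hw_def]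
      field_simp [ht.ne_zero]
      ring
    have ht' : IsOneUnit O (y' / y) := by
      have h : y' / y - 1 = y⁻¹ * (-ε) := by
        rw [hy']
        field_simp
        ring
      rw [IsOneUnit, h]
      exact mul_mem_nonunits hyinv (O.nonunits.neg_mem hε)
    have hy'0 : y' ≠ 0 := fun h0 => ht'.ne_zero (by rw [h0, zero_div])
    obtain ⟨Dy', hDy', -⟩ := hR.prin y' hy'0
    obtain ⟨Dt, hDt, -⟩ := hR.prin (y' / y) ht'.ne_zero
    have hone := hR.one _ ht' Dt hDt d
    have hsum : Dy' = Dy + Dt := by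
      ext P
      rw [Finsupp.add_apply, hDy', hDy, hDt, ord_div P hy'0 hy0]
      ring
    have hy'P : ∀ P, cls P = d → 0 ≤ P.ord y' := by
      intro P hP
      refine ord_nonneg_of_mem P ?_
      rw [hy'_def]
      exact sub_mem (mul_mem (P.algebraMap_mem' _) (mem_of_ord_nonneg P (hwP P hP).ge))
        (one_mem _)
    have h1 : 0 ≤ Finsupp.mapDomain cls Dy' d :=
      mapDomain_nonneg cls Dy' d (fun P hP => by rw [hDy']; exact hy'P P hP)
    rw [hsum, Finsupp.mapDomain_add, Finsupp.add_apply, hone, add_zero] at h1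
    exact h1
  have := sum_pos_of_nonneg (Finsupp.mapDomain cls Dy) hnonneg (cls P₀) hpos
  rw [sum_mapDomain, hdeg] at this
  exact lt_irrefl _ this

end Fermat.Agent.S37.H36
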