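/-
S37 study (helper36), package P-F, part 6: INJ.

* `isPrincipal_of_locOne` : if `m D` is principal, `D ∈ Prin + locOne` and the abstract Theorem T
  holds for the exponent `m`, then `D` is principal.
* `isPrincipal_of_locOne_of_primes` : the same for any `m ≠ 0`, from Theorem T for the prime
  divisors of `m`.
* `isPrincipal_of_pull` : injectivity on `m`-torsion of `D ↦ pull D mod (Prin + locOne)` for an
  additive map `pull` between divisor groups with "`pull D` principal `→ d D` principal",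
  `d` prime to `m`.
-/
import Fermat.Agent.S37.H36.Cons

set_option autoImplicit false

open AlgebraicCurve

noncomputable section

namespace Fermat.Agent.S37.H36

open Fermat.Agent.S24.H52

variable {K : Type*} [Field K] {A : ValuationSubring K} {F : Type*} [Field F] [Algebra K F]
  {O : ValuationSubring F} {𝔇 : Type*} {cls : Place K F → 𝔇}

/-- **INJ**, one exponent. The hypothesis `hT` is `H74.AbsTStatement K F O m`. -/
theorem isPrincipal_of_locOne (hR : RedHyp A O cls) (m : ℕ) (hm : m ≠ 0)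
    (hT : ∀ u : F, u - 1 ∈ O.nonunits → (∀ P : Place K F, (m : ℤ) ∣ P.ord u) →
      ∃ w : F, u = w ^ m)
    (D : Place K F →₀ ℤ) (hmD : m • D ∈ Divisor.principal (K := K) (F := F))
    (hD : D ∈ Divisor.principal (K := K) (F := F) ⊔ locOne O cls) :
    D ∈ Divisor.principal (K := K) (F := F) := by
  obtain ⟨D₁, hD₁, E, hE, rfl⟩ := AddSubgroup.mem_sup.mp hD
  obtain ⟨f, hf0, hf⟩ := hD₁
  obtain ⟨u, hu0, hu⟩ := hmD
  have hfm : f ^ m ≠ 0 := pow_ne_zero m hf0
  have hu₁0 : u / f ^ m ≠ 0 := div_ne_zero hu0 hfm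
  have hE' : ∀ P, (m • E) P = P.ord (u / f ^ m) := by
    intro P
    have h1 := hu P
    rw [smul_add, Finsupp.add_apply, Finsupp.smul_apply, Finsupp.smul_apply, hf P] at h1
    rw [Finsupp.smul_apply, ord_div P hu0 hfm, ord_pow, ← h1]
    simp only [nsmul_eq_mul]
    ring
  obtain ⟨c, hc0, hc⟩ := exists_const_mul_isOneUnit hR hu₁0 (m • E) hE' (nsmul_mem hE m)
  have hordc : ∀ P : Place K F, P.ord (algebraMap K F c * (u / f ^ m)) = (m : ℤ) * E P := by
    intro P
    rw [ord_const_mul P c hc0, ← hE' P, Finsupp.smul_apply, nsmul_eq_mul]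
  obtain ⟨w, hw⟩ := hT _ hc (fun P => ⟨E P, hordc P⟩)
  have hw0 : w ≠ 0 := by
    rintro rfl
    rw [zero_pow hm] at hw
    exact hc.ne_zero hw
  have hEw : ∀ P : Place K F, E P = P.ord w := by
    intro P
    have h1 := hordc P
    rw [hw, ord_pow] at h1
    exact (mul_left_cancel₀ (Nat.cast_ne_zero.mpr hm) h1).symm
  exact ⟨f * w, mul_ne_zero hf0 hw0, fun P => by
    rw [Finsupp.add_apply, hf P, hEw P, P.ord_mul hf0 hw0]⟩

/-- **INJ**, any exponent `m ≠ 0`, from Theorem T for the prime divisors of `m`. -/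
theorem isPrincipal_of_locOne_of_primes (hR : RedHyp A O cls) (m : ℕ) (hm : m ≠ 0)
    (hT : ∀ p : ℕ, p.Prime → p ∣ m → ∀ u : F, u - 1 ∈ O.nonunits →
      (∀ P : Place K F, (p : ℤ) ∣ P.ord u) → ∃ w : F, u = w ^ p)
    (D : Place K F →₀ ℤ) (hmD : m • D ∈ Divisor.principal (K := K) (F := F))
    (hD : D ∈ Divisor.principal (K := K) (F := F) ⊔ locOne O cls) :
    D ∈ Divisor.principal (K := K) (F := F) := by
  induction m using Nat.strong_induction_on generalizing D with
  | _ m ih =>
    by_cases h1 : m = 1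
    · subst h1
      simpa using hmD
    obtain ⟨p, hp, hpm⟩ := Nat.exists_prime_and_dvd h1
    obtain ⟨m', rfl⟩ := hpm
    have hm' : m' ≠ 0 := by
      rintro rfl
      exact hm (mul_zero p)
    have hlt : m' < p * m' := by
      have := hp.two_le
      have := Nat.pos_of_ne_zero hm'
      nlinarith
    refine ih m' hlt hm' (fun q hq hqm => hT q hq (Dvd.dvd.mul_left hqm p)) D ?_ hD
    refine isPrincipal_of_locOne hR p hp.ne_zero (hT p hp (dvd_mul_right p m')) (m' • D) ?_
      (nsmul_mem hD m')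
    rwa [smul_smul]

/-- **Injectivity on `m`-torsion** of `D ↦ pull D mod (Prin + locOne)`. -/
theorem isPrincipal_of_pull (hR : RedHyp A O cls) {F₁ : Type*} [Field F₁] [Algebra K F₁]
    (pull : (Place K F₁ →₀ ℤ) →+ (Place K F →₀ ℤ))
    (hpull : ∀ D, D ∈ Divisor.principal (K := K) (F := F₁) →
      pull D ∈ Divisor.principal (K := K) (F := F))
    (d : ℕ) (hdesc : ∀ D, pull D ∈ Divisor.principal (K := K) (F := F) →
      d • D ∈ Divisor.principal (K := K) (F := F₁))
    (m : ℕ) (hm : m ≠ 0) (hdm : Nat.Coprime d m)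
    (hT : ∀ p : ℕ, p.Prime → p ∣ m → ∀ u : F, u - 1 ∈ O.nonunits →
      (∀ P : Place K F, (p : ℤ) ∣ P.ord u) → ∃ w : F, u = w ^ p)
    (D : Place K F₁ →₀ ℤ) (hmD : m • D ∈ Divisor.principal (K := K) (F := F₁))
    (hD : pull D ∈ Divisor.principal (K := K) (F := F) ⊔ locOne O cls) :
    D ∈ Divisor.principal (K := K) (F := F₁) := by
  have h1 : pull D ∈ Divisor.principal (K := K) (F := F) := by
    refine isPrincipal_of_locOne_of_primes hR m hm hT (pull D) ?_ hD
    rw [← map_nsmul]
    exact hpull _ hmD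
  have h2 := hdesc D h1
  -- `gcd(d, m) = 1`
  have h3 : ((d : ℤ) * Nat.gcdA d m + (m : ℤ) * Nat.gcdB d m) • D = D := by
    rw [← Nat.gcd_eq_gcd_ab, hdm, Nat.cast_one, one_smul]
  rw [← h3, add_smul, mul_comm (d : ℤ), mul_comm (m : ℤ), mul_smul, mul_smul]
  refine add_mem (zsmul_mem ?_ _) (zsmul_mem ?_ _)
  · simpa using h2
  · simpa using hmD

end Fermat.Agent.S37.H36
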