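/-
S37 study (helper36), package P-F, part 11: the map `ρ` and its three properties.

`F₁` = the level-`N` function field, `F` = the J-level function field with the Gauss ring `O` and
the class map `cls`; `pull : Div(F₁) →+ Div(F)` (in the application `Divisor.pullbackAlong V _`).

  `rho O cls pull hpull : Pic0 K F₁ →+ Div(F) ⧸ (Prin(F) ⊔ locOne O cls)`,  `[D] ↦ [pull D]`.

* `rho_injective_torsion` : (iii) injectivity on `m`-torsion  (CONS + Theorem T + norm descent);
* `rho_smul`              : (i) invariance under inertia      (tube parameters);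
* `rho_es`                : (ii) the Eichler-Shimura relation from its divisor form on places.
-/
import Fermat.Agent.S37.H36.Inj
import Fermat.Agent.S37.H36.Cong

set_option autoImplicit false

open AlgebraicCurve

noncomputable section

namespace Fermat.Agent.S37.H36

variable {K : Type*} [Field K] {A : ValuationSubring K} {F₁ F : Type*} [Field F₁] [Field F]
  [Algebra K F₁] [Algebra K F] {O : ValuationSubring F} {𝔇 : Type*} {cls : Place K F → 𝔇}

variable (O cls) in
/-- `Prin(F) ⊔ locOne O cls`. -/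
abbrev redSub : AddSubgroup (Divisor K F) :=
  Divisor.principal (K := K) (F := F) ⊔ locOne O cls

variable (O cls) in
/-- `ρ : Pic0(F₁) → Div(F) / (Prin ⊔ locOne)`. -/
def rho (pull : Divisor K F₁ →+ Divisor K F)
    (hpull : ∀ D, D ∈ Divisor.principal (K := K) (F := F₁) →
      pull D ∈ Divisor.principal (K := K) (F := F)) :
    Pic0 K F₁ →+ Divisor K F ⧸ redSub O cls :=
  QuotientAddGroup.lift _
    ((QuotientAddGroup.mk' (redSub O cls)).comp
      (pull.comp (Divisor.degZero (K := K) (F := F₁)).subtype))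
    (by
      rintro ⟨D, hD0⟩ hD
      rw [AddSubgroup.mem_addSubgroupOf] at hD
      rw [AddMonoidHom.mem_ker]
      show (QuotientAddGroup.mk (pull D) : Divisor K F ⧸ redSub O cls) = 0
      rw [QuotientAddGroup.eq_zero_iff]
      exact AddSubgroup.mem_sup_left (hpull D hD))

theorem rho_mk (pull : Divisor K F₁ →+ Divisor K F)
    (hpull : ∀ D, D ∈ Divisor.principal (K := K) (F := F₁) →
      pull D ∈ Divisor.principal (K := K) (F := F))
    (D : Divisor.degZero (K := K) (F := F₁)) :
    rho O cls pull hpull (Pic0.mk D) = QuotientAddGroup.mk (pull D.1) :=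
  rfl

theorem rho_mk_eq_zero_iff (pull : Divisor K F₁ →+ Divisor K F)
    (hpull : ∀ D, D ∈ Divisor.principal (K := K) (F := F₁) →
      pull D ∈ Divisor.principal (K := K) (F := F))
    (D : Divisor.degZero (K := K) (F := F₁)) :
    rho O cls pull hpull (Pic0.mk D) = 0 ↔ pull D.1 ∈ redSub O cls := by
  rw [rho_mk, QuotientAddGroup.eq_zero_iff]

/-- **(iii)** `ρ` is injective on `m`-torsion. -/
theorem rho_injective_torsion (hR : RedHyp A O cls) (pull : Divisor K F₁ →+ Divisor K F)
    (hpull : ∀ D, D ∈ Divisor.principal (K := K) (F := F₁) →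
      pull D ∈ Divisor.principal (K := K) (F := F))
    (d : ℕ) (hdesc : ∀ D, pull D ∈ Divisor.principal (K := K) (F := F) →
      d • D ∈ Divisor.principal (K := K) (F := F₁))
    (m : ℕ) (hm : m ≠ 0) (hdm : Nat.Coprime d m)
    (hT : ∀ p : ℕ, p.Prime → p ∣ m → ∀ u : F, u - 1 ∈ O.nonunits →
      (∀ P : Place K F, (p : ℤ) ∣ P.ord u) → ∃ w : F, u = w ^ p)
    (z : Pic0 K F₁) (hmz : m • z = 0) (hz : rho O cls pull hpull z = 0) : z = 0 := by
  obtain ⟨D, rfl⟩ := Pic0.mk_surjective z
  have hD := (rho_mk_eq_zero_iff pull hpull D).mp hz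
  have hmD : m • D.1 ∈ Divisor.principal (K := K) (F := F₁) := by
    have h1 : Pic0.mk (m • D) = 0 := by
      rw [← hmz]
      rfl
    have h2 := (QuotientAddGroup.eq_zero_iff _).mp h1
    rw [AddSubgroup.mem_addSubgroupOf] at h2
    exact h2
  have h3 := isPrincipal_of_pull hR pull hpull d hdesc m hm hdm hT D.1 hmD hD
  exact (QuotientAddGroup.eq_zero_iff _).mpr (AddSubgroup.mem_addSubgroupOf.mpr h3)

/-- **(i)** `ρ` is invariant under a semilinear automorphism that preserves the classes and acts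
trivially on the residue field of `O` (inertia). -/
theorem rho_smul (hR : RedHyp A O cls) (pull : Divisor K F₁ →+ Divisor K F)
    (hpull : ∀ D, D ∈ Divisor.principal (K := K) (F := F₁) →
      pull D ∈ Divisor.principal (K := K) (F := F))
    (g₁ : SemilinearAut K F₁) (g₂ : SemilinearAut K F)
    (hequiv : ∀ D : Divisor K F₁, pull (g₁ • D) = g₂ • pull D)
    (hcls : ∀ P : Place K F, cls (g₂ • P) = cls P)
    (hres : ∀ f : F, f ∈ O → f⁻¹ ∈ O → g₂ • f - f ∈ O.nonunits) (z : Pic0 K F₁) :
    rho O cls pull hpull (g₁ • z) = rho O cls pull hpull z := by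
  obtain ⟨D, rfl⟩ := Pic0.mk_surjective z
  rw [SemilinearAut.pic0_smul_mk, rho_mk, rho_mk, SemilinearAut.coe_degZeroSMulHom, hequiv,
    ← sub_eq_zero, ← QuotientAddGroup.mk_sub, QuotientAddGroup.eq_zero_iff]
  exact AddSubgroup.mem_sup_right (smul_sub_mem_locOne hR g₂ hcls hres _)

/-- The Eichler-Shimura relation on divisors from its form on places. -/
theorem es_mem (S : AddSubgroup (Divisor K F)) (pull : Divisor K F₁ →+ Divisor K F)
    (Tdiv : Divisor K F₁ →+ Divisor K F₁) (g₁ : SemilinearAut K F₁) (ℓ : ℕ)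
    (hes : ∀ P : Place K F₁,
      pull (Tdiv (Finsupp.single P 1)) - pull (Finsupp.single (g₁ • P) 1)
        - ℓ • pull (Finsupp.single (g₁⁻¹ • P) 1) ∈ S)
    (D : Divisor K F₁) :
    pull (g₁ • g₁ • D) - pull (Tdiv (g₁ • D)) + ℓ • pull D ∈ S := by
  have hΦ : ∀ E : Divisor K F₁, pull (Tdiv E) - pull (g₁ • E) - ℓ • pull (g₁⁻¹ • E) ∈ S := by
    intro E
    induction E using Finsupp.induction with
    | zero =>
      rw [smul_zero, smul_zero, map_zero, map_zero, sub_zero, smul_zero, sub_zero]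
      exact zero_mem _
    | single_add P n E _ _ ih =>
      have e : ∀ Q : Place K F₁, (Finsupp.single Q n : Divisor K F₁) = n • Finsupp.single Q 1 := by
        intro Q
        rw [Finsupp.smul_single, smul_eq_mul, mul_one]
      have h1 : pull (Tdiv (Finsupp.single P n)) - pull (g₁ • (Finsupp.single P n : Divisor K F₁))
          - ℓ • pull (g₁⁻¹ • (Finsupp.single P n : Divisor K F₁))
          = n • (pull (Tdiv (Finsupp.single P 1)) - pull (Finsupp.single (g₁ • P) 1)
            - ℓ • pull (Finsupp.single (g₁⁻¹ • P) 1)) := by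
        rw [SemilinearAut.smul_single, SemilinearAut.smul_single, e P, e (g₁ • P), e (g₁⁻¹ • P),
          map_zsmul, map_zsmul, map_zsmul, map_zsmul, smul_sub, smul_sub, smul_comm ℓ n]
      have h2 : pull (Tdiv (Finsupp.single P n + E))
          - pull (g₁ • ((Finsupp.single P n : Divisor K F₁) + E))
          - ℓ • pull (g₁⁻¹ • ((Finsupp.single P n : Divisor K F₁) + E))
          = (pull (Tdiv (Finsupp.single P n)) - pull (g₁ • (Finsupp.single P n : Divisor K F₁))
              - ℓ • pull (g₁⁻¹ • (Finsupp.single P n : Divisor K F₁)))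
            + (pull (Tdiv E) - pull (g₁ • E) - ℓ • pull (g₁⁻¹ • E)) := by
        rw [smul_add, smul_add, map_add, map_add, map_add, map_add, smul_add]
        abel
      rw [h2, h1]
      exact add_mem (zsmul_mem (hes P) n) ih
  have h := hΦ (g₁ • D)
  rw [inv_smul_smul] at h
  have e : pull (g₁ • g₁ • D) - pull (Tdiv (g₁ • D)) + ℓ • pull D
      = -(pull (Tdiv (g₁ • D)) - pull (g₁ • g₁ • D) - ℓ • pull D) := by abel
  rw [e]
  exact neg_mem h

/-- **(ii)** the Eichler-Shimura relation for `ρ`. -/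
theorem rho_es (pull : Divisor K F₁ →+ Divisor K F)
    (hpull : ∀ D, D ∈ Divisor.principal (K := K) (F := F₁) →
      pull D ∈ Divisor.principal (K := K) (F := F))
    (g₁ : SemilinearAut K F₁) (ℓ : ℕ) (Tdiv : Divisor K F₁ →+ Divisor K F₁)
    (T : Pic0 K F₁ →+ Pic0 K F₁)
    (hT : ∀ D : Divisor.degZero (K := K) (F := F₁),
      ∃ h : Tdiv D.1 ∈ Divisor.degZero (K := K) (F := F₁), T (Pic0.mk D) = Pic0.mk ⟨Tdiv D.1, h⟩)
    (hes : ∀ P : Place K F₁,
      pull (Tdiv (Finsupp.single P 1)) - pull (Finsupp.single (g₁ • P) 1)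
        - ℓ • pull (Finsupp.single (g₁⁻¹ • P) 1) ∈ redSub O cls)
    (z : Pic0 K F₁) :
    rho O cls pull hpull (g₁ • g₁ • z - T (g₁ • z) + ℓ • z) = 0 := by
  obtain ⟨D, rfl⟩ := Pic0.mk_surjective z
  obtain ⟨hdeg, hTD⟩ := hT (SemilinearAut.degZeroSMulHom g₁ D)
  rw [map_add, map_sub, map_nsmul, SemilinearAut.pic0_smul_mk, SemilinearAut.pic0_smul_mk, hTD,
    rho_mk, rho_mk, rho_mk, ← QuotientAddGroup.mk_sub, ← QuotientAddGroup.mk_nsmul,
    ← QuotientAddGroup.mk_add, QuotientAddGroup.eq_zero_iff]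
  exact es_mem (redSub O cls) pull Tdiv g₁ ℓ hes D.1

end Fermat.Agent.S37.H36
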