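/-
S37 (helper36), P-H skeleton (generic): the clause of `H65.Core` for one `(ℓ, A, s)` from the
abstract inputs.

`J := Pic0 L (laurentBaseChange L F₀)` with its arithmetic Galois action; `F₂` the J-level function
field with the Gauss ring `O` and the classes `cls`; `pull : Div(F₁) →+ Div(F₂)`;
`gal₂ σ` the semilinear action of `σ` on `F₂`; `Tdiv` the Hecke correspondence on divisors.

`core_clause` = `hcore_of_rho` applied to `rho O cls pull hpull`, with
(i) `rho_smul`, (ii) `rho_es`, (iii) `rho_injective_torsion`.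
-/
import Fermat.Agent.S37.H36.Rho
import Fermat.Agent.S37.H36.RhoMap
import Fermat.Prelude.Def_ModularCurve_ArithmeticGalois

set_option autoImplicit false

open AlgebraicCurve ModularCurve

noncomputable section

namespace Fermat.Agent.S37.H36

variable {L : Type*} [Field L] [Algebra ℚ L] (F₀ : IntermediateField ℚ (LaurentSeries ℚ))
  [Module HeckeAlg (Pic0 L (laurentBaseChange L F₀))]
  [SMulCommClass (L ≃ₐ[ℚ] L) HeckeAlg (Pic0 L (laurentBaseChange L F₀))]
  {F₂ : Type*} [Field F₂] [Algebra L F₂] {A : ValuationSubring L} {O : ValuationSubring F₂}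
  {𝔇 : Type*} {cls : Place L F₂ → 𝔇}

/-- **The clause of `Core` for one `(ℓ, A, s)`.** -/
theorem core_clause (hR : RedHyp A O cls) (p ℓ : ℕ) (hℓ : ℓ.Prime) (s : L ≃ₐ[ℚ] L)
    (pull : Divisor L (laurentBaseChange L F₀) →+ Divisor L F₂)
    (hpull : ∀ D, D ∈ Divisor.principal (K := L) (F := laurentBaseChange L F₀) →
      pull D ∈ Divisor.principal (K := L) (F := F₂))
    (d : ℕ) (hdesc : ∀ D, pull D ∈ Divisor.principal (K := L) (F := F₂) →
      d • D ∈ Divisor.principal (K := L) (F := laurentBaseChange L F₀))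
    (hp : p ≠ 0) (hdp : Nat.Coprime d p)
    (hT : ∀ q : ℕ, q.Prime → q ∣ p → ∀ u : F₂, u - 1 ∈ O.nonunits →
      (∀ P : Place L F₂, (q : ℤ) ∣ P.ord u) → ∃ w : F₂, u = w ^ q)
    (gal₂ : (L ≃ₐ[ℚ] L) → SemilinearAut L F₂)
    (hequiv : ∀ σ ∈ A.inertiaSubgroupIn ℚ, ∀ D : Divisor L (laurentBaseChange L F₀),
      pull (arithmeticGalois F₀ σ • D) = gal₂ σ • pull D)
    (hcls : ∀ σ ∈ A.inertiaSubgroupIn ℚ, ∀ P : Place L F₂, cls (gal₂ σ • P) = cls P)
    (hres : ∀ σ ∈ A.inertiaSubgroupIn ℚ, ∀ f : F₂, f ∈ O → f⁻¹ ∈ O →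
      gal₂ σ • f - f ∈ O.nonunits)
    (Tdiv : Divisor L (laurentBaseChange L F₀) →+ Divisor L (laurentBaseChange L F₀))
    (hTdiv : ∀ D : Divisor.degZero (K := L) (F := laurentBaseChange L F₀),
      ∃ h : Tdiv D.1 ∈ Divisor.degZero (K := L) (F := laurentBaseChange L F₀),
        heckeGen ⟨ℓ, hℓ⟩ • (Pic0.mk D : Pic0 L (laurentBaseChange L F₀)) = Pic0.mk ⟨Tdiv D.1, h⟩)
    (hes : ∀ P : Place L (laurentBaseChange L F₀),
      pull (Tdiv (Finsupp.single P 1)) - pull (Finsupp.single (arithmeticGalois F₀ s • P) 1)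
        - ℓ • pull (Finsupp.single ((arithmeticGalois F₀ s)⁻¹ • P) 1) ∈ redSub O cls) :
    ∀ x ∈ H65.relSubmodule (K := ℚ) (Pic0 L (laurentBaseChange L F₀)) A ℓ hℓ s,
      (∃ n : ℕ, p ^ n • x = 0) → x = 0 := by
  refine hcore_of_rho p A ℓ hℓ s (rho O cls pull hpull) ?_ ?_ ?_
  · intro σ hσ x
    exact rho_smul hR pull hpull (arithmeticGalois F₀ σ) (gal₂ σ) (hequiv σ hσ) (hcls σ hσ)
      (hres σ hσ) x
  · intro x
    exact rho_es pull hpull (arithmeticGalois F₀ s) ℓ Tdiv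
      (DistribSMul.toAddMonoidHom (Pic0 L (laurentBaseChange L F₀)) (heckeGen ⟨ℓ, hℓ⟩))
      hTdiv hes x
  · rintro x ⟨n, hn⟩ hx
    exact rho_injective_torsion hR pull hpull d hdesc (p ^ n) (pow_ne_zero n hp)
      (Nat.Coprime.pow_right n hdp) (fun q hq hqm => hT q hq (hq.dvd_of_dvd_pow hqm)) x hn hx

end Fermat.Agent.S37.H36
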