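/-
S37 (helper36), package P-G(d) "EVAL", part 1: transport of values along algebra homs and
semilinear automorphisms, evaluation of effective divisors.
-/
import Fermat.Agent.S37.H36.Val
import Fermat.Agent.S37.H36.Core
import Fermat.Prelude.Def_AlgebraicCurve_Correspondence

set_option autoImplicit false

open AlgebraicCurve

noncomputable section

namespace Fermat.Agent.S37.H36

section along

variable {K F F' : Type*} [Field K] [Field F] [Field F'] [Algebra K F] [Algebra K F']

/-- The norm along an algebra homomorphism `φ : F → F'`. -/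
def normAlong (φ : F →ₐ[K] F') (g : F') : F :=
  letI := algebraAlong φ
  Algebra.norm F g

theorem mem_restrictAlong_iff (φ : F →ₐ[K] F') (hφ : φ.toRingHom.IsIntegral) (w : Place K F')
    (f : F) : f ∈ (w.restrictAlong φ hφ).toValuationSubring ↔ φ f ∈ w.toValuationSubring := by
  let _ := algebraAlong φ
  have := isScalarTower_along φ
  have := isIntegral_along φ hφ
  exact Place.mem_restrict_iff (w := w) (F := F)

theorem mem_nonunits_restrictAlong_iff (φ : F →ₐ[K] F') (hφ : φ.toRingHom.IsIntegral)
    (w : Place K F') (f : F) :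
    f ∈ (w.restrictAlong φ hφ).toValuationSubring.nonunits ↔
      φ f ∈ w.toValuationSubring.nonunits := by
  rw [ValuationSubring.mem_nonunits_iff_or, ValuationSubring.mem_nonunits_iff_or,
    mem_restrictAlong_iff, map_inv₀, map_eq_zero]

theorem sub_mem_nonunits_of_restrictAlong (φ : F →ₐ[K] F') (hφ : φ.toRingHom.IsIntegral)
    (w : Place K F') {f : F} {a : K}
    (h : f - algebraMap K F a ∈ (w.restrictAlong φ hφ).toValuationSubring.nonunits) :
    φ f - algebraMap K F' a ∈ w.toValuationSubring.nonunits := by
  have h1 := (mem_nonunits_restrictAlong_iff φ hφ w _).mp h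
  rwa [map_sub, φ.commutes] at h1

theorem smul_mem_nonunits_smul_iff (g : SemilinearAut K F) (P : Place K F) (x : F) :
    g • x ∈ (g • P).toValuationSubring.nonunits ↔ x ∈ P.toValuationSubring.nonunits := by
  by_cases hx : x = 0
  · subst hx
    rw [smul_zero]
    exact ⟨fun _ => P.toValuationSubring.nonunits.zero_mem,
      fun _ => (g • P).toValuationSubring.nonunits.zero_mem⟩
  · have hgx : g • x ≠ 0 := by
      rw [SemilinearAut.smul_def]
      exact (map_ne_zero_iff _ (SemilinearAut.toRingAut g).injective).mpr hx
    rw [mem_nonunits_iff_ord_pos _ hgx, mem_nonunits_iff_ord_pos _ hx, SemilinearAut.ord_smul]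

theorem smul_sub_mem_nonunits (g : SemilinearAut K F) (P : Place K F) {f : F} {a : K}
    (h : f - algebraMap K F a ∈ P.toValuationSubring.nonunits) :
    g • f - algebraMap K F (SemilinearAut.baseAut g a) ∈ (g • P).toValuationSubring.nonunits := by
  have h1 := (smul_mem_nonunits_smul_iff g P _).mpr h
  rwa [smul_sub, SemilinearAut.smul_algebraMap] at h1

theorem pow_sub_mem_nonunits (P : Place K F) {f : F} {a : K}
    (h : f - algebraMap K F a ∈ P.toValuationSubring.nonunits) (n : ℕ) :
    f ^ n - algebraMap K F (a ^ n) ∈ P.toValuationSubring.nonunits := by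
  induction n with
  | zero =>
    rw [pow_zero, pow_zero, map_one, sub_self]
    exact P.toValuationSubring.nonunits.zero_mem
  | succ n ih =>
    rw [pow_succ, pow_succ]
    exact mul_sub_mem_nonunits P ih h

theorem sub_sub_mem_nonunits (P : Place K F) {f g : F} {a b : K}
    (hf : f - algebraMap K F a ∈ P.toValuationSubring.nonunits)
    (hg : g - algebraMap K F b ∈ P.toValuationSubring.nonunits) :
    f - g - algebraMap K F (a - b) ∈ P.toValuationSubring.nonunits := by
  have h : f - g - algebraMap K F (a - b) = (f - algebraMap K F a) - (g - algebraMap K F b) := by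
    rw [map_sub]
    ring
  rw [h]
  exact P.toValuationSubring.nonunits.sub_mem hf hg

end along

section effProd

variable {K : Type*} [Field K] {α : Type*}

/-- Evaluation of an effective divisor at a family of constants: `∏ b(w)^(D w)`. -/
def effProd (b : α → K) (D : α →₀ ℤ) : K := D.prod (fun w n => b w ^ n.toNat)

theorem effProd_eq_prod (b : α → K) (D : α →₀ ℤ) (s : Finset α) (hs : D.support ⊆ s) :
    effProd b D = ∏ w ∈ s, b w ^ (D w).toNat :=
  Finsupp.prod_of_support_subset D hs _ (fun w _ => by simp)

theorem effProd_zero (b : α → K) : effProd b 0 = 1 := Finsupp.prod_zero_index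

theorem effProd_add (b : α → K) (D D' : α →₀ ℤ) (hD : ∀ w, 0 ≤ D w) (hD' : ∀ w, 0 ≤ D' w) :
    effProd b (D + D') = effProd b D * effProd b D' := by
  classical
  rw [effProd_eq_prod b (D + D') (D.support ∪ D'.support) Finsupp.support_add,
    effProd_eq_prod b D (D.support ∪ D'.support) Finset.subset_union_left,
    effProd_eq_prod b D' (D.support ∪ D'.support) Finset.subset_union_right,
    ← Finset.prod_mul_distrib]
  refine Finset.prod_congr rfl fun w _ => ?_
  rw [Finsupp.add_apply, Int.toNat_add (hD w) (hD' w), pow_add]

theorem effProd_single (b : α → K) (w : α) (n : ℕ) :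
    effProd b (Finsupp.single w (n : ℤ)) = b w ^ n := by
  rw [effProd, Finsupp.prod_single_index (by simp)]
  simp

theorem effProd_sum {ι : Type*} (b : α → K) (I : Finset ι) (D : ι → α →₀ ℤ)
    (hD : ∀ i ∈ I, ∀ w, 0 ≤ D i w) :
    effProd b (∑ i ∈ I, D i) = ∏ i ∈ I, effProd b (D i) := by
  classical
  induction I using Finset.induction_on with
  | empty => rw [Finset.sum_empty, Finset.prod_empty, effProd_zero]
  | insert j I hj ih =>
    rw [Finset.sum_insert hj, Finset.prod_insert hj,
      effProd_add b _ _ (hD j (Finset.mem_insert_self j I)) (fun w => by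
        rw [Finsupp.finsetSum_apply]
        exact Finset.sum_nonneg fun i hi => hD i (Finset.mem_insert_of_mem hi) w),
      ih fun i hi => hD i (Finset.mem_insert_of_mem hi)]

theorem effProd_nsmul (b : α → K) (n : ℕ) (D : α →₀ ℤ) (hD : ∀ w, 0 ≤ D w) :
    effProd b (n • D) = effProd b D ^ n := by
  induction n with
  | zero => rw [zero_smul, pow_zero, effProd_zero]
  | succ n ih =>
    rw [succ_nsmul, pow_succ, effProd_add b _ _ (fun w => by
      rw [Finsupp.smul_apply]
      exact nsmul_nonneg (hD w) n) hD, ih]

end effProd

end Fermat.Agent.S37.H36
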