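/-
S37 study (helper36), package P-F, part 5: the matching lemma (pure algebra).

* `sum_eq_of_prod_eq` : over an infinite field `k`, if `∏ (X - v i)^(m₁ i) = ∏ (X - v i)^(m₂ i)`
  for every vector `v` of a subspace `V ≤ (ι → k)`, then the multiplicities `m₁`, `m₂` have the
  same sum on every class of the relation "`v i = v j` for all `v ∈ V`".
* `sum_zsmul_mem_of_class_sums` : if `e i - e j ∈ S` for equivalent `i, j` and `n` has sum `0` on
  every class, then `∑ n i • e i ∈ S`.
-/
import Mathlib

set_option autoImplicit false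

noncomputable section

namespace Fermat.Agent.S37.H36

open Polynomial

theorem rootMultiplicity_prod_X_sub_C_pow {k : Type*} [Field k] [DecidableEq k] {ι : Type*}
    (s : Finset ι) (v : ι → k) (m : ι → ℕ) (a : k) :
    rootMultiplicity a (∏ i ∈ s, (X - C (v i)) ^ m i) = ∑ i ∈ s, if v i = a then m i else 0 := by
  classical
  induction s using Finset.induction_on with
  | empty => simp
  | insert j s hj ih =>
    have hne : ∀ i, (X - C (v i)) ^ m i ≠ 0 := fun i => pow_ne_zero _ (X_sub_C_ne_zero _)
    rw [Finset.prod_insert hj, Finset.sum_insert hj, rootMultiplicity_mul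
      (mul_ne_zero (hne j) (Finset.prod_ne_zero_iff.mpr fun i _ => hne i)), ih]
    congr 1
    split_ifs with h
    · rw [h]
      exact rootMultiplicity_X_sub_C_pow a (m j)
    · refine rootMultiplicity_eq_zero ?_
      rw [IsRoot.def, eval_pow, eval_sub, eval_X, eval_C]
      exact pow_ne_zero _ (sub_ne_zero.mpr (Ne.symm h))

open scoped Classical in
/-- **Matching lemma.** -/
theorem sum_eq_of_prod_eq {k : Type*} [Field k] [Infinite k] {ι : Type*} [Fintype ι]
    (m₁ m₂ : ι → ℕ) (V : Submodule k (ι → k))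
    (h : ∀ v ∈ V, ∏ i, (X - C (v i)) ^ m₁ i = ∏ i, (X - C (v i)) ^ m₂ i) (i₀ : ι) :
    ∑ i with (∀ v ∈ V, v i = v i₀), m₁ i = ∑ i with (∀ v ∈ V, v i = v i₀), m₂ i := by
  -- a vector of `V` separating all pairs that can be separated
  obtain ⟨v, hvV, hv⟩ : ∃ v ∈ V, ∀ i j : ι, (∃ w ∈ V, w i ≠ w j) → v i ≠ v j := by
    let J := {p : ι × ι // ∃ w ∈ V, w p.1 ≠ w p.2}
    let f : J → Module.Dual k (ι → k) := fun p =>
      LinearMap.proj (R := k) (φ := fun _ : ι => k) p.1.1 - LinearMap.proj p.1.2
    have hf : ∀ p : J, ∃ x ∈ V, f p x ≠ 0 := by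
      rintro ⟨⟨i, j⟩, w, hw, hne⟩
      refine ⟨w, hw, ?_⟩
      show w i - w j ≠ 0
      exact sub_ne_zero.mpr hne
    obtain ⟨x, hxV, hx⟩ := Module.Dual.exists_forall_mem_ne_zero_of_forall_exists V f hf
    refine ⟨x, hxV, fun i j hij => ?_⟩
    have h1 : x i - x j ≠ 0 := hx ⟨(i, j), hij⟩
    exact sub_ne_zero.mp h1
  have hiff : ∀ i, (∀ w ∈ V, w i = w i₀) ↔ v i = v i₀ := by
    intro i
    constructor
    · intro h
      exact h v hvV
    · intro h w hw
      by_contra hne
      exact hv i i₀ ⟨w, hw, hne⟩ h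
  have h1 := rootMultiplicity_prod_X_sub_C_pow Finset.univ v m₁ (v i₀)
  have h2 := rootMultiplicity_prod_X_sub_C_pow Finset.univ v m₂ (v i₀)
  rw [h v hvV, h2] at h1
  rw [Finset.sum_filter, Finset.sum_filter]
  simp only [hiff]
  exact h1.symm

open scoped Classical in
/-- **Reassembly.** -/
theorem sum_zsmul_mem_of_class_sums {ι M : Type*} [Fintype ι] [AddCommGroup M]
    (S : AddSubgroup M) (e : ι → M) (r : ι → ι → Prop) (hr : Equivalence r)
    (hS : ∀ i j, r i j → e i - e j ∈ S) (n : ι → ℤ)
    (hn : ∀ i₀, ∑ i with r i i₀, n i = 0) : ∑ i, n i • e i ∈ S := by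
  let st : Setoid ι := ⟨r, hr⟩
  let rep : ι → ι := fun i => (Quotient.mk st i).out
  have hrep : ∀ i, r (rep i) i := fun i => Quotient.mk_out (s := st) i
  have hsplit : ∑ i, n i • e i = ∑ i, n i • (e i - e (rep i)) + ∑ i, n i • e (rep i) := by
    rw [← Finset.sum_add_distrib]
    refine Finset.sum_congr rfl fun i _ => ?_
    rw [← smul_add, sub_add_cancel]
  have hzero : ∑ i, n i • e (rep i) = 0 := by
    rw [← Finset.sum_fiberwise Finset.univ (Quotient.mk st) (fun i => n i • e (rep i))]
    refine Finset.sum_eq_zero fun c _ => ?_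
    induction c using Quotient.inductionOn with
    | h i₀ =>
      have h1 : ∀ i ∈ Finset.univ.filter (fun i => Quotient.mk st i = Quotient.mk st i₀),
          n i • e (rep i) = n i • e (rep i₀) := by
        intro i hi
        have : Quotient.mk st i = Quotient.mk st i₀ := (Finset.mem_filter.mp hi).2
        show n i • e ((Quotient.mk st i).out) = n i • e ((Quotient.mk st i₀).out)
        rw [this]
      rw [Finset.sum_congr rfl h1, ← Finset.sum_smul]
      have h2 : Finset.univ.filter (fun i => Quotient.mk st i = Quotient.mk st i₀)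
          = Finset.univ.filter (fun i => r i i₀) := by
        ext i
        simp only [Finset.mem_filter, Finset.mem_univ, true_and]
        exact Quotient.eq (r := st)
      rw [h2, hn i₀, zero_smul]
  rw [hsplit, hzero, add_zero]
  refine S.sum_mem fun i _ => S.zsmul_mem (hS i (rep i) (hr.symm (hrep i))) (n i)

end Fermat.Agent.S37.H36
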