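/-
S37 study (helper36), package P-F, part 9: from congruences of products of values to `locOne`.

`sub_mem_locOne_of_prod_congr` : `D₁, D₂ ≥ 0` supported in a region `R` (a union of classes), `B` a
set of test functions (Gauss-integral, regular on `R`, stable under `+` and multiplication by
constants of `A`).  If
  `∏_{P ∈ D₁} (x₀ - y(P)) ≡ ∏_{P ∈ D₂} (x₀ - y(P))  mod m_A`   for all `y ∈ B`, `x₀ ∈ A`,
and two places of `R` at which all `y ∈ B` take congruent values differ by an element of `locOne`,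
then `D₁ - D₂ ∈ locOne`.
-/
import Fermat.Agent.S37.H36.Cong
import Fermat.Agent.S37.H36.Matching
import Fermat.Agent.S37.H36.Val

set_option autoImplicit false

open AlgebraicCurve Polynomial

noncomputable section

namespace Fermat.Agent.S37.H36

open Fermat.Agent.S24.H52

variable {K : Type*} [Field K] {A : ValuationSubring K} {F : Type*} [Field F] [Algebra K F]
  {O : ValuationSubring F} {𝔇 : Type*} {cls : Place K F → 𝔇}

theorem sub_mem_locOne_of_prod_congr (hR : RedHyp A O cls)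
    [Infinite (IsLocalRing.ResidueField A)]
    (R : Set (Place K F)) (hRcls : ∀ P ∈ R, ∀ P' : Place K F, cls P' = cls P → P' ∈ R)
    (B : Set F) (hB0 : (0 : F) ∈ B) (hBadd : ∀ y ∈ B, ∀ y' ∈ B, y + y' ∈ B)
    (hBsmul : ∀ a ∈ A, ∀ y ∈ B, algebraMap K F a * y ∈ B)
    (hBO : ∀ y ∈ B, y ∈ O) (hBreg : ∀ y ∈ B, ∀ P ∈ R, 0 ≤ P.ord y)
    (hcong : ∀ P ∈ R, ∀ Q ∈ R, (∀ y ∈ B, val P y - val Q y ∈ A.nonunits) →
      Finsupp.single Q (1 : ℤ) - Finsupp.single P 1 ∈ locOne O cls)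
    (D₁ D₂ : Place K F →₀ ℤ) (h₁ : ∀ P, 0 ≤ D₁ P) (h₂ : ∀ P, 0 ≤ D₂ P)
    (h₁R : ∀ P, D₁ P ≠ 0 → P ∈ R) (h₂R : ∀ P, D₂ P ≠ 0 → P ∈ R)
    (hprod : ∀ y ∈ B, ∀ x₀ ∈ A,
      D₁.prod (fun P n => (x₀ - val P y) ^ n.toNat) -
        D₂.prod (fun P n => (x₀ - val P y) ^ n.toNat) ∈ A.nonunits) :
    D₁ - D₂ ∈ locOne O cls := by
  classical
  set s : Finset (Place K F) := D₁.support ∪ D₂.support with hs_def
  have hsR : ∀ P ∈ s, P ∈ R := by
    intro P hP
    rcases Finset.mem_union.mp hP with h | h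
    · exact h₁R P (Finsupp.mem_support_iff.mp h)
    · exact h₂R P (Finsupp.mem_support_iff.mp h)
  have hvalex : ∀ y ∈ B, ∀ P ∈ R,
      ∃ a : K, y - algebraMap K F a ∈ P.toValuationSubring.nonunits :=
    fun y hy P hP => hR.value P y (mem_of_ord_nonneg P (hBreg y hy P hP))
  have hvalA : ∀ y ∈ B, ∀ P ∈ R, val P y ∈ A := by
    intro y hy P hP
    exact val_mem hR P (hBO y hy) (fun P' hP' => hBreg y hy P' (hRcls P hP P' hP')) _
      (val_spec P (hvalex y hy P hP))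
  -- the space of reduced value vectors
  let V : Submodule (IsLocalRing.ResidueField A) ({P // P ∈ s} → IsLocalRing.ResidueField A) :=
    { carrier := {v | ∃ y ∈ B, ∀ i : {P // P ∈ s}, v i = resA A (val i.1 y)}
      zero_mem' := ⟨0, hB0, fun i => by rw [val_zero, resA_zero]; rfl⟩
      add_mem' := by
        rintro v w ⟨y, hy, hv⟩ ⟨y', hy', hw⟩
        refine ⟨y + y', hBadd y hy y' hy', fun i => ?_⟩
        have hi := hsR i.1 i.2
        rw [Pi.add_apply, hv i, hw i,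
          val_add i.1 (val_spec i.1 (hvalex y hy i.1 hi)) (val_spec i.1 (hvalex y' hy' i.1 hi)),
          resA_add (hvalA y hy i.1 hi) (hvalA y' hy' i.1 hi)]
      smul_mem' := by
        rintro c v ⟨y, hy, hv⟩
        obtain ⟨a, ha, rfl⟩ := resA_surjective c
        refine ⟨algebraMap K F a * y, hBsmul a ha y hy, fun i => ?_⟩
        have hi := hsR i.1 i.2
        rw [Pi.smul_apply, smul_eq_mul, hv i,
          val_const_mul i.1 a (val_spec i.1 (hvalex y hy i.1 hi)),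
          resA_mul ha (hvalA y hy i.1 hi)] }
  -- the polynomial identities
  have key : ∀ (D : Place K F →₀ ℤ), D.support ⊆ s → ∀ y ∈ B, ∀ x₀ ∈ A,
      D.prod (fun P n => (x₀ - val P y) ^ n.toNat) ∈ A ∧
      (∏ i : {P // P ∈ s}, (X - C (resA A (val i.1 y))) ^ (D i.1).toNat).eval (resA A x₀)
        = resA A (D.prod (fun P n => (x₀ - val P y) ^ n.toNat)) := by
    intro D hD y hy x₀ hx₀
    have hfac : ∀ P ∈ s, (x₀ - val P y) ^ (D P).toNat ∈ A := fun P hP =>
      pow_mem (sub_mem hx₀ (hvalA y hy P (hsR P hP))) _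
    have h1 : D.prod (fun P n => (x₀ - val P y) ^ n.toNat)
        = ∏ P ∈ s, (x₀ - val P y) ^ (D P).toNat :=
      Finsupp.prod_of_support_subset D hD _ (fun P _ => by simp)
    rw [h1]
    refine ⟨prod_mem hfac, ?_⟩
    rw [resA_prod s _ hfac, eval_prod, ← Finset.prod_coe_sort s]
    refine Finset.prod_congr rfl fun i _ => ?_
    rw [eval_pow, eval_sub, eval_X, eval_C,
      resA_pow (sub_mem hx₀ (hvalA y hy i.1 (hsR i.1 i.2))),
      resA_sub hx₀ (hvalA y hy i.1 (hsR i.1 i.2))]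
  have hpoly : ∀ v ∈ V, ∏ i, (X - C (v i)) ^ (D₁ i.1).toNat
      = ∏ i, (X - C (v i)) ^ (D₂ i.1).toNat := by
    rintro v ⟨y, hy, hv⟩
    have hv' : v = fun i => resA A (val i.1 y) := funext hv
    subst hv'
    refine Polynomial.funext fun r => ?_
    obtain ⟨x₀, hx₀, rfl⟩ := resA_surjective r
    obtain ⟨hA₁, e₁⟩ := key D₁ Finset.subset_union_left y hy x₀ hx₀
    obtain ⟨hA₂, e₂⟩ := key D₂ Finset.subset_union_right y hy x₀ hx₀
    rw [e₁, e₂]
    exact (resA_eq_iff hA₁ hA₂).mpr (hprod y hy x₀ hx₀)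
  -- matching
  have hmatch := sum_eq_of_prod_eq (fun i : {P // P ∈ s} => (D₁ i.1).toNat)
    (fun i => (D₂ i.1).toNat) V hpoly
  -- reassembly
  have hr : Equivalence (fun i j : {P // P ∈ s} => ∀ v ∈ V, v i = v j) :=
    ⟨fun i v _ => rfl, fun h v hv => (h v hv).symm, fun h h' v hv => (h v hv).trans (h' v hv)⟩
  have hS : ∀ i j : {P // P ∈ s}, (∀ v ∈ V, v i = v j) →
      (Finsupp.single i.1 (1 : ℤ) - Finsupp.single j.1 1 : Place K F →₀ ℤ) ∈ locOne O cls := by
    intro i j hij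
    refine hcong j.1 (hsR j.1 j.2) i.1 (hsR i.1 i.2) (fun y hy => ?_)
    have hv := hij (fun l => resA A (val l.1 y)) ⟨y, hy, fun _ => rfl⟩
    exact (resA_eq_iff (hvalA y hy j.1 (hsR j.1 j.2)) (hvalA y hy i.1 (hsR i.1 i.2))).mp hv.symm
  have hn : ∀ i₀ : {P // P ∈ s},
      ∑ i with (∀ v ∈ V, v i = v i₀), (D₁ i.1 - D₂ i.1) = 0 := by
    intro i₀
    have h := congrArg (Nat.cast : ℕ → ℤ) (hmatch i₀)
    rw [Nat.cast_sum, Nat.cast_sum] at h
    rw [Finset.sum_sub_distrib, sub_eq_zero]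
    calc ∑ i with (∀ v ∈ V, v i = v i₀), D₁ i.1
        = ∑ i with (∀ v ∈ V, v i = v i₀), ((D₁ i.1).toNat : ℤ) :=
          Finset.sum_congr rfl fun i _ => (Int.toNat_of_nonneg (h₁ i.1)).symm
      _ = ∑ i with (∀ v ∈ V, v i = v i₀), ((D₂ i.1).toNat : ℤ) := h
      _ = ∑ i with (∀ v ∈ V, v i = v i₀), D₂ i.1 :=
          Finset.sum_congr rfl fun i _ => Int.toNat_of_nonneg (h₂ i.1)
  have hsum := sum_zsmul_mem_of_class_sums (locOne O cls)
    (fun i : {P // P ∈ s} => (Finsupp.single i.1 (1 : ℤ) : Place K F →₀ ℤ))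
    (fun i j => ∀ v ∈ V, v i = v j) hr hS (fun i => D₁ i.1 - D₂ i.1) hn
  have hD : D₁ - D₂ = ∑ i : {P // P ∈ s}, (D₁ i.1 - D₂ i.1) •
      (Finsupp.single i.1 (1 : ℤ) : Place K F →₀ ℤ) := by
    rw [Finset.sum_coe_sort s (fun P => (D₁ P - D₂ P) • (Finsupp.single P (1 : ℤ) : Place K F →₀ ℤ))]
    ext P
    rw [Finsupp.sub_apply, Finsupp.finsetSum_apply]
    by_cases hP : P ∈ s
    · rw [Finset.sum_eq_single P]
      · rw [Finsupp.smul_apply, Finsupp.single_eq_same, smul_eq_mul, mul_one]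
      · intro Q _ hQP
        rw [Finsupp.smul_apply, Finsupp.single_apply, if_neg hQP, smul_zero]
      · intro h
        exact absurd hP h
    · have h1' : D₁ P = 0 := by
        by_contra h
        exact hP (Finset.mem_union_left _ (Finsupp.mem_support_iff.mpr h))
      have h2' : D₂ P = 0 := by
        by_contra h
        exact hP (Finset.mem_union_right _ (Finsupp.mem_support_iff.mpr h))
      rw [h1', h2', sub_zero]
      symm
      refine Finset.sum_eq_zero fun Q hQ => ?_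
      have hQP : Q ≠ P := fun h => hP (h ▸ hQ)
      rw [Finsupp.smul_apply, Finsupp.single_apply, if_neg hQP, smul_zero]
  rw [hD]
  exact hsum

/-- The hypothesis `hcong` of `sub_mem_locOne_of_prod_congr` from: (`hsep`) the test functions
separate the classes inside `R`; (`htau`) tube parameters can be chosen among the test
functions. -/
theorem cong_of_sep_tau (hR : RedHyp A O cls) (R : Set (Place K F)) (B : Set F)
    (hBreg : ∀ y ∈ B, ∀ P ∈ R, 0 ≤ P.ord y)
    (hsep : ∀ P ∈ R, ∀ Q ∈ R, (∀ y ∈ B, val P y - val Q y ∈ A.nonunits) → cls Q = cls P)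
    (htau : ∀ P ∈ R, ∃ τ ∈ B, τ⁻¹ ∈ O ∧ P.ord τ = 1 ∧
      ∀ P' : Place K F, cls P' = cls P → P' ≠ P → P'.ord τ = 0) :
    ∀ P ∈ R, ∀ Q ∈ R, (∀ y ∈ B, val P y - val Q y ∈ A.nonunits) →
      Finsupp.single Q (1 : ℤ) - Finsupp.single P 1 ∈ locOne O cls := by
  intro P hP Q hQ h
  obtain ⟨τ, hτB, hτO', hτP, hτ⟩ := htau P hP
  have hcls := hsep P hP Q hQ h
  have hτ0 : τ ≠ 0 := by
    rintro rfl
    rw [Place.ord_zero] at hτP
    exact zero_ne_one hτP
  have hvP : val P τ = 0 := val_eq P (by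
    rw [map_zero, sub_zero, mem_nonunits_iff_ord_pos P hτ0, hτP]
    exact zero_lt_one)
  have h1 := h τ hτB
  rw [hvP, zero_sub] at h1
  have ha : val Q τ ∈ A.nonunits := by
    have := A.nonunits.neg_mem h1
    rwa [neg_neg] at this
  exact single_sub_single_mem_locOne hR P Q hcls τ hτO' hτP hτ (val Q τ) ha
    (val_spec Q (hR.value Q τ (mem_of_ord_nonneg Q (hBreg τ hτB Q hQ))))

end Fermat.Agent.S37.H36
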