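/-
S37 (helper36), package P-G(d) "EVAL", part 2: the evaluated Kronecker congruence.

Levels: `F₁` (level `N`), `F₂` (the J level, with the Gauss ring `O` and the classes `cls`),
`F₃` (level `N ℓ`);  `V : F₁ → F₂`,  `α β : F₁ → F₃`,  `T = α_* β^*`,  `g₁` = the Frobenius acting
semilinearly on `F₁`.

`EvalHyp` collects the inputs (norm value formulas, norm integrality, Kronecker congruence modulo
the maximal ideal of `O`, stability of the regions, Frobenius on constants).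
`prod_congr_of_evalHyp` : for a place `P` of the region, a test function `y ∈ B`, `x₀ ∈ A`,
  `∏_{w ∈ V^* T P} (x₀ - y(w)) ≡ ∏_{w ∈ V^*(sP) + ℓ V^*(s⁻¹P)} (x₀ - y(w))   mod m_A`.
`es_place` : hence `V^* T P - V^*(sP) - ℓ V^*(s⁻¹ P) ∈ locOne`.
-/
import Fermat.Agent.S37.H36.Along
import Fermat.Agent.S37.H36.ES

set_option autoImplicit false

open AlgebraicCurve

noncomputable section

namespace Fermat.Agent.S37.H36

open Fermat.Agent.S24.H52

section generic

variable {K F F' : Type*} [Field K] [Field F] [Field F'] [Algebra K F] [Algebra K F']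
  [HasPrincipalDivisors K F']

/-- The norm value formula along `φ` (package P-C). -/
def NormValueAlong (φ : F →ₐ[K] F') (hφ : φ.toRingHom.IsIntegral) : Prop :=
  ∀ (v : Place K F) (g : F') (c : Place K F' → K),
    (∀ w ∈ Place.fiberAlong φ hφ v,
      g - algebraMap K F' (c w) ∈ w.toValuationSubring.nonunits) →
    normAlong φ g -
        algebraMap K F (∏ w ∈ Place.fiberAlong φ hφ v, c w ^ w.ramificationIndexAlong φ)
      ∈ v.toValuationSubring.nonunits

theorem pullbackAlong_single_nonneg (φ : F →ₐ[K] F') (hφ : φ.toRingHom.IsIntegral)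
    (v : Place K F) (n : ℤ) (hn : 0 ≤ n) (w : Place K F') :
    0 ≤ Divisor.pullbackAlong φ hφ (Finsupp.single v n) w := by
  classical
  rw [Divisor.pullbackAlong_apply]
  refine mul_nonneg (Int.natCast_nonneg _) ?_
  rw [Finsupp.single_apply]
  split_ifs
  · exact hn
  · exact le_rfl

theorem effProd_pullbackAlong_single (φ : F →ₐ[K] F') (hφ : φ.toRingHom.IsIntegral)
    (b : Place K F' → K) (v : Place K F) :
    effProd b (Divisor.pullbackAlong φ hφ (Finsupp.single v 1))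
      = ∏ w ∈ Place.fiberAlong φ hφ v, b w ^ w.ramificationIndexAlong φ := by
  classical
  rw [Divisor.pullbackAlong_single, effProd_sum b _ _ (fun w _ w' => by
    rw [one_mul, Finsupp.single_apply]
    split_ifs
    · exact Int.natCast_nonneg _
    · exact le_rfl)]
  refine Finset.prod_congr rfl fun w _ => ?_
  rw [one_mul, effProd_single]

theorem correspondence_single (α β : F →ₐ[K] F') (hα : α.toRingHom.IsIntegral)
    (hβ : β.toRingHom.IsIntegral) (hf : ∀ Q : Place K F', Q.inertiaDegAlong α hα = 1)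
    (P : Place K F) :
    Divisor.correspondence β α hβ hα (Finsupp.single P 1)
      = ∑ Q ∈ Place.fiberAlong β hβ P,
          Finsupp.single (Q.restrictAlong α hα) (Q.ramificationIndexAlong β : ℤ) := by
  rw [Divisor.correspondence_apply, Divisor.pullbackAlong_single, map_sum]
  refine Finset.sum_congr rfl fun Q _ => ?_
  rw [Divisor.pushforwardAlong_single, hf Q, one_mul, Nat.cast_one, mul_one]

end generic

variable {K : Type*} [Field K] {F₁ F₂ F₃ : Type*} [Field F₁] [Field F₂] [Field F₃]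
  [Algebra K F₁] [Algebra K F₂] [Algebra K F₃]
  [HasPrincipalDivisors K F₂] [HasPrincipalDivisors K F₃]

/-- The inputs of the evaluated Kronecker congruence on a region. -/
structure EvalHyp (A : ValuationSubring K) (O : ValuationSubring F₂) {𝔇 : Type*}
    (cls : Place K F₂ → 𝔇)
    (V : F₁ →ₐ[K] F₂) (hV : V.toRingHom.IsIntegral)
    (α β : F₁ →ₐ[K] F₃) (hα : α.toRingHom.IsIntegral) (hβ : β.toRingHom.IsIntegral)
    (g₁ : SemilinearAut K F₁) (ℓ : ℕ)
    (R₁ : Set (Place K F₁)) (R₂ : Set (Place K F₂)) (B : Set F₂) : Prop where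
  /-- norm value formula for `V` (P-C) -/
  normV : NormValueAlong V hV
  /-- norm value formula for `β` (P-C) -/
  normβ : NormValueAlong β hβ
  /-- norms of Gauss-integral functions are Gauss-integral (P-G2) -/
  normInt : ∀ g : F₂, g ∈ O → V (normAlong V g) ∈ O
  /-- the Kronecker congruence modulo the maximal ideal of `O` (P-D + P-G(b)) -/
  kron : ∀ c : F₁, V c ∈ O →
    V (normAlong β (α c) - (g₁⁻¹ • c) ^ ℓ * (g₁ • c)) ∈ O.nonunits
  /-- `R₂` is the preimage of `R₁` -/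
  region : ∀ w : Place K F₂, w ∈ R₂ ↔ w.restrictAlong V hV ∈ R₁
  region_smul : ∀ P ∈ R₁, g₁ • P ∈ R₁
  region_inv_smul : ∀ P ∈ R₁, g₁⁻¹ • P ∈ R₁
  /-- the region is stable under `T`-neighbours (P-E) -/
  region_T : ∀ Q : Place K F₃, Q.restrictAlong β hβ ∈ R₁ → Q.restrictAlong α hα ∈ R₁
  /-- `R₂` is a union of classes -/
  region_cls : ∀ w ∈ R₂, ∀ w' : Place K F₂, cls w' = cls w → w' ∈ R₂
  B_O : ∀ y ∈ B, y ∈ O
  B_reg : ∀ y ∈ B, ∀ w ∈ R₂, 0 ≤ w.ord y
  base_symm_mem : ∀ a ∈ A, (SemilinearAut.baseAut g₁).symm a ∈ A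
  /-- the Frobenius congruence on constants -/
  frob : ∀ a ∈ A, SemilinearAut.baseAut g₁ a - a ^ ℓ ∈ A.nonunits
  inertia_one : ∀ Q : Place K F₃, Q.inertiaDegAlong α hα = 1
  exists_over : ∀ P : Place K F₁, ∃ w : Place K F₂, w.restrictAlong V hV = P

variable {A : ValuationSubring K} {O : ValuationSubring F₂} {𝔇 : Type*} {cls : Place K F₂ → 𝔇}
  {V : F₁ →ₐ[K] F₂} {hV : V.toRingHom.IsIntegral}
  {α β : F₁ →ₐ[K] F₃} {hα : α.toRingHom.IsIntegral} {hβ : β.toRingHom.IsIntegral}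
  {g₁ : SemilinearAut K F₁} {ℓ : ℕ}
  {R₁ : Set (Place K F₁)} {R₂ : Set (Place K F₂)} {B : Set F₂}

/-- the value of `N_V(x₀ - y)` at a place of `F₁` -/
def aV (V : F₁ →ₐ[K] F₂) (hV : V.toRingHom.IsIntegral) (x₀ : K) (y : F₂) (P₁ : Place K F₁) : K :=
  ∏ w ∈ Place.fiberAlong V hV P₁, (x₀ - val w y) ^ w.ramificationIndexAlong V

theorem val_mem_of_evalHyp (hR : RedHyp A O cls)
    (hE : EvalHyp A O cls V hV α β hα hβ g₁ ℓ R₁ R₂ B) {y : F₂} (hy : y ∈ B)
    {w : Place K F₂} (hw : w ∈ R₂) :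
    y - algebraMap K F₂ (val w y) ∈ w.toValuationSubring.nonunits ∧ val w y ∈ A := by
  have h1 := val_spec w (hR.value w y (mem_of_ord_nonneg w (hE.B_reg y hy w hw)))
  exact ⟨h1, val_mem hR w (hE.B_O y hy)
    (fun w' hw' => hE.B_reg y hy w' (hE.region_cls w hw w' hw')) _ h1⟩

/-- Step A: the value of `c = N_V(x₀ - y)` on the region. -/
theorem aV_spec (hR : RedHyp A O cls)
    (hE : EvalHyp A O cls V hV α β hα hβ g₁ ℓ R₁ R₂ B) {y : F₂} (hy : y ∈ B)
    {x₀ : K} (hx₀ : x₀ ∈ A) {P₁ : Place K F₁} (hP₁ : P₁ ∈ R₁) :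
    aV V hV x₀ y P₁ ∈ A ∧
      normAlong V (algebraMap K F₂ x₀ - y) - algebraMap K F₁ (aV V hV x₀ y P₁)
        ∈ P₁.toValuationSubring.nonunits := by
  have hw : ∀ w ∈ Place.fiberAlong V hV P₁, w ∈ R₂ := by
    intro w hw
    rw [hE.region, Place.mem_fiberAlong.mp hw]
    exact hP₁
  refine ⟨prod_mem fun w hw' => pow_mem
    (sub_mem hx₀ (val_mem_of_evalHyp hR hE hy (hw w hw')).2) _, ?_⟩
  refine hE.normV P₁ _ (fun w => x₀ - val w y) (fun w hw' => ?_)
  have h1 := (val_mem_of_evalHyp hR hE hy (hw w hw')).1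
  have h2 : algebraMap K F₂ x₀ - y - algebraMap K F₂ (x₀ - val w y)
      = -(y - algebraMap K F₂ (val w y)) := by
    rw [map_sub]
    ring
  rw [h2]
  exact w.toValuationSubring.nonunits.neg_mem h1

/-- the value of `cstar = N_β(α c)` at a place of `F₁` -/
def aB (V : F₁ →ₐ[K] F₂) (hV : V.toRingHom.IsIntegral) (α β : F₁ →ₐ[K] F₃)
    (hα : α.toRingHom.IsIntegral) (hβ : β.toRingHom.IsIntegral) (x₀ : K) (y : F₂)
    (P : Place K F₁) : K :=
  ∏ Q ∈ Place.fiberAlong β hβ P,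
    (aV V hV x₀ y (Q.restrictAlong α hα)) ^ Q.ramificationIndexAlong β

/-- Step B: the value of `cstar` on the region. -/
theorem aB_spec (hR : RedHyp A O cls)
    (hE : EvalHyp A O cls V hV α β hα hβ g₁ ℓ R₁ R₂ B) {y : F₂} (hy : y ∈ B)
    {x₀ : K} (hx₀ : x₀ ∈ A) {P : Place K F₁} (hP : P ∈ R₁) :
    aB V hV α β hα hβ x₀ y P ∈ A ∧
      normAlong β (α (normAlong V (algebraMap K F₂ x₀ - y)))
          - algebraMap K F₁ (aB V hV α β hα hβ x₀ y P)
        ∈ P.toValuationSubring.nonunits := by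
  have hQ : ∀ Q ∈ Place.fiberAlong β hβ P, Q.restrictAlong α hα ∈ R₁ := fun Q hQ =>
    hE.region_T Q (by rw [Place.mem_fiberAlong.mp hQ]; exact hP)
  refine ⟨prod_mem fun Q hQ' => pow_mem (aV_spec hR hE hy hx₀ (hQ Q hQ')).1 _, ?_⟩
  exact hE.normβ P _ (fun Q => aV V hV x₀ y (Q.restrictAlong α hα)) (fun Q hQ' =>
    sub_mem_nonunits_of_restrictAlong α hα Q (aV_spec hR hE hy hx₀ (hQ Q hQ')).2)

/-- the value of `cstar - (s⁻¹ c)^ℓ (s c)` at a place of `F₁` -/
def kap (V : F₁ →ₐ[K] F₂) (hV : V.toRingHom.IsIntegral) (α β : F₁ →ₐ[K] F₃)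
    (hα : α.toRingHom.IsIntegral) (hβ : β.toRingHom.IsIntegral) (g₁ : SemilinearAut K F₁)
    (ℓ : ℕ) (x₀ : K) (y : F₂) (P : Place K F₁) : K :=
  aB V hV α β hα hβ x₀ y P
    - ((SemilinearAut.baseAut g₁).symm (aV V hV x₀ y (g₁ • P))) ^ ℓ
      * SemilinearAut.baseAut g₁ (aV V hV x₀ y (g₁⁻¹ • P))

/-- Steps C, D. -/
theorem kap_spec (hR : RedHyp A O cls)
    (hE : EvalHyp A O cls V hV α β hα hβ g₁ ℓ R₁ R₂ B) {y : F₂} (hy : y ∈ B)
    {x₀ : K} (hx₀ : x₀ ∈ A) {P : Place K F₁} (hP : P ∈ R₁) :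
    (normAlong β (α (normAlong V (algebraMap K F₂ x₀ - y)))
        - (g₁⁻¹ • normAlong V (algebraMap K F₂ x₀ - y)) ^ ℓ
          * (g₁ • normAlong V (algebraMap K F₂ x₀ - y)))
      - algebraMap K F₁ (kap V hV α β hα hβ g₁ ℓ x₀ y P) ∈ P.toValuationSubring.nonunits := by
  have h1 := (aB_spec hR hE hy hx₀ hP).2
  have h2 : g₁ • normAlong V (algebraMap K F₂ x₀ - y)
      - algebraMap K F₁ (SemilinearAut.baseAut g₁ (aV V hV x₀ y (g₁⁻¹ • P)))
        ∈ P.toValuationSubring.nonunits := by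
    have h := smul_sub_mem_nonunits g₁ (g₁⁻¹ • P)
      (aV_spec hR hE hy hx₀ (hE.region_inv_smul P hP)).2
    rwa [smul_inv_smul] at h
  have h3 : g₁⁻¹ • normAlong V (algebraMap K F₂ x₀ - y)
      - algebraMap K F₁ ((SemilinearAut.baseAut g₁).symm (aV V hV x₀ y (g₁ • P)))
        ∈ P.toValuationSubring.nonunits := by
    have h := smul_sub_mem_nonunits g₁⁻¹ (g₁ • P)
      (aV_spec hR hE hy hx₀ (hE.region_smul P hP)).2
    rwa [inv_smul_smul, SemilinearAut.baseAut_inv] at h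
  exact sub_sub_mem_nonunits P h1 (mul_sub_mem_nonunits P (pow_sub_mem_nonunits P h3 ℓ) h2)

/-- Step E: Lemma V. -/
theorem kap_mem_nonunits (hR : RedHyp A O cls)
    (hE : EvalHyp A O cls V hV α β hα hβ g₁ ℓ R₁ R₂ B) {y : F₂} (hy : y ∈ B)
    {x₀ : K} (hx₀ : x₀ ∈ A) {P : Place K F₁} (hP : P ∈ R₁) :
    kap V hV α β hα hβ g₁ ℓ x₀ y P ∈ A.nonunits := by
  obtain ⟨w₀, hw₀⟩ := hE.exists_over P
  have hw₀R : w₀ ∈ R₂ := (hE.region w₀).mpr (hw₀ ▸ hP)
  have hx₀y : algebraMap K F₂ x₀ - y ∈ O := sub_mem ((hR.mem_iff _).mpr hx₀) (hE.B_O y hy)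
  have hVf := hE.kron _ (hE.normInt _ hx₀y)
  have hval := sub_mem_nonunits_of_restrictAlong V hV w₀
    (by rw [hw₀]; exact kap_spec hR hE hy hx₀ hP)
  refine val_mem_nonunits hR w₀ hVf (fun w' hw' => ?_) _ hval
  have hw'R : w' ∈ R₂ := hE.region_cls w₀ hw₀R w' hw'
  have hP' : w'.restrictAlong V hV ∈ R₁ := (hE.region w').mp hw'R
  have h1 := kap_spec hR hE hy hx₀ hP'
  exact ord_nonneg_of_mem w'
    ((mem_restrictAlong_iff V hV w' _).mp (mem_of_sub_mem_nonunits _ h1))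

/-- Step F: the Frobenius congruences. -/
theorem aB_sub_mem_nonunits (hR : RedHyp A O cls)
    (hE : EvalHyp A O cls V hV α β hα hβ g₁ ℓ R₁ R₂ B) {y : F₂} (hy : y ∈ B)
    {x₀ : K} (hx₀ : x₀ ∈ A) {P : Place K F₁} (hP : P ∈ R₁) :
    aB V hV α β hα hβ x₀ y P - aV V hV x₀ y (g₁ • P) * (aV V hV x₀ y (g₁⁻¹ • P)) ^ ℓ
      ∈ A.nonunits := by
  have hκ := kap_mem_nonunits hR hE hy hx₀ hP
  have ha' := (aV_spec hR hE hy hx₀ (hE.region_smul P hP)).1
  have ha'' := (aV_spec hR hE hy hx₀ (hE.region_inv_smul P hP)).1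
  have hb' := hE.base_symm_mem _ ha'
  have h1 := hE.frob _ hb'
  rw [RingEquiv.apply_symm_apply] at h1
  have h2 := hE.frob _ ha''
  have hsa'' : SemilinearAut.baseAut g₁ (aV V hV x₀ y (g₁⁻¹ • P)) ∈ A := by
    have h := A.add_mem _ _ (A.nonunits_subset h2) (pow_mem ha'' ℓ)
    rwa [sub_add_cancel] at h
  have e : aB V hV α β hα hβ x₀ y P - aV V hV x₀ y (g₁ • P) * (aV V hV x₀ y (g₁⁻¹ • P)) ^ ℓ
      = kap V hV α β hα hβ g₁ ℓ x₀ y P
        + (-(aV V hV x₀ y (g₁ • P)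
            - ((SemilinearAut.baseAut g₁).symm (aV V hV x₀ y (g₁ • P))) ^ ℓ))
          * SemilinearAut.baseAut g₁ (aV V hV x₀ y (g₁⁻¹ • P))
        + aV V hV x₀ y (g₁ • P)
          * (SemilinearAut.baseAut g₁ (aV V hV x₀ y (g₁⁻¹ • P))
            - (aV V hV x₀ y (g₁⁻¹ • P)) ^ ℓ) := by
    unfold kap
    ring
  rw [e]
  exact A.nonunits.add_mem
    (A.nonunits.add_mem hκ (nonunits_mul_mem (A.nonunits.neg_mem h1) hsa''))
    (mul_mem_nonunits ha' h2)

/-- Step G, left side. -/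
theorem effProd_corr (hE : EvalHyp A O cls V hV α β hα hβ g₁ ℓ R₁ R₂ B) (x₀ : K) (y : F₂)
    (P : Place K F₁) :
    effProd (fun w => x₀ - val w y)
        (Divisor.pullbackAlong V hV (Divisor.correspondence β α hβ hα (Finsupp.single P 1)))
      = aB V hV α β hα hβ x₀ y P := by
  have hsm : ∀ Q : Place K F₃,
      (Finsupp.single (Q.restrictAlong α hα) (Q.ramificationIndexAlong β : ℤ) : Divisor K F₁)
        = (Q.ramificationIndexAlong β) • Finsupp.single (Q.restrictAlong α hα) (1 : ℤ) := by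
    intro Q
    rw [Finsupp.smul_single, nsmul_eq_mul, mul_one]
  rw [correspondence_single α β hα hβ hE.inertia_one P, map_sum,
    effProd_sum _ _ _ (fun Q _ =>
      pullbackAlong_single_nonneg V hV _ _ (Int.natCast_nonneg _))]
  refine Finset.prod_congr rfl fun Q _ => ?_
  rw [hsm Q, map_nsmul,
    effProd_nsmul _ _ _ (pullbackAlong_single_nonneg V hV _ 1 zero_le_one),
    effProd_pullbackAlong_single]
  rfl

/-- Step G, right side. -/
theorem effProd_frob (x₀ : K) (y : F₂) (P P' : Place K F₁) (ℓ : ℕ) :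
    effProd (fun w => x₀ - val w y)
        (Divisor.pullbackAlong V hV (Finsupp.single P 1)
          + ℓ • Divisor.pullbackAlong V hV (Finsupp.single P' 1))
      = aV V hV x₀ y P * (aV V hV x₀ y P') ^ ℓ := by
  rw [effProd_add _ _ _ (pullbackAlong_single_nonneg V hV _ 1 zero_le_one) (fun w => by
      rw [Finsupp.smul_apply]
      exact nsmul_nonneg (pullbackAlong_single_nonneg V hV _ 1 zero_le_one w) ℓ),
    effProd_nsmul _ _ _ (pullbackAlong_single_nonneg V hV _ 1 zero_le_one),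
    effProd_pullbackAlong_single, effProd_pullbackAlong_single]
  rfl

/-- **The evaluated Kronecker congruence.** -/
theorem prod_congr_of_evalHyp (hR : RedHyp A O cls)
    (hE : EvalHyp A O cls V hV α β hα hβ g₁ ℓ R₁ R₂ B) {y : F₂} (hy : y ∈ B)
    {x₀ : K} (hx₀ : x₀ ∈ A) {P : Place K F₁} (hP : P ∈ R₁) :
    (Divisor.pullbackAlong V hV
        (Divisor.correspondence β α hβ hα (Finsupp.single P 1))).prod
        (fun w n => (x₀ - val w y) ^ n.toNat)
      - (Divisor.pullbackAlong V hV (Finsupp.single (g₁ • P) 1)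
          + ℓ • Divisor.pullbackAlong V hV (Finsupp.single (g₁⁻¹ • P) 1)).prod
          (fun w n => (x₀ - val w y) ^ n.toNat) ∈ A.nonunits := by
  have h1 := effProd_corr hE x₀ y P
  have h2 := effProd_frob (V := V) (hV := hV) x₀ y (g₁ • P) (g₁⁻¹ • P) ℓ
  unfold effProd at h1 h2
  rw [h1, h2]
  exact aB_sub_mem_nonunits hR hE hy hx₀ hP

theorem correspondence_single_apply_ne_zero
    (hE : EvalHyp A O cls V hV α β hα hβ g₁ ℓ R₁ R₂ B) (P P₁ : Place K F₁)
    (h : Divisor.correspondence β α hβ hα (Finsupp.single P 1) P₁ ≠ 0) :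
    ∃ Q ∈ Place.fiberAlong β hβ P, Q.restrictAlong α hα = P₁ := by
  classical
  rw [correspondence_single α β hα hβ hE.inertia_one P, Finsupp.finsetSum_apply] at h
  obtain ⟨Q, hQ, hne⟩ := Finset.exists_ne_zero_of_sum_ne_zero h
  refine ⟨Q, hQ, ?_⟩
  by_contra hne'
  exact hne (by rw [Finsupp.single_apply, if_neg hne'])

theorem correspondence_single_nonneg
    (hE : EvalHyp A O cls V hV α β hα hβ g₁ ℓ R₁ R₂ B) (P P₁ : Place K F₁) :
    0 ≤ Divisor.correspondence β α hβ hα (Finsupp.single P 1) P₁ := by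
  classical
  rw [correspondence_single α β hα hβ hE.inertia_one P, Finsupp.finsetSum_apply]
  refine Finset.sum_nonneg fun Q _ => ?_
  rw [Finsupp.single_apply]
  split_ifs
  · exact Int.natCast_nonneg _
  · exact le_rfl

/-- **Eichler-Shimura modulo `locOne`** at a place of the region:
`V^* T P - V^*(s P) - ℓ V^*(s⁻¹ P) ∈ locOne`. -/
theorem es_place (hR : RedHyp A O cls) [Infinite (IsLocalRing.ResidueField A)]
    (hE : EvalHyp A O cls V hV α β hα hβ g₁ ℓ R₁ R₂ B)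
    (hB0 : (0 : F₂) ∈ B) (hBadd : ∀ y ∈ B, ∀ y' ∈ B, y + y' ∈ B)
    (hBsmul : ∀ a ∈ A, ∀ y ∈ B, algebraMap K F₂ a * y ∈ B)
    (hcong : ∀ w ∈ R₂, ∀ w' ∈ R₂, (∀ y ∈ B, val w y - val w' y ∈ A.nonunits) →
      Finsupp.single w' (1 : ℤ) - Finsupp.single w 1 ∈ locOne O cls)
    {P : Place K F₁} (hP : P ∈ R₁) :
    Divisor.pullbackAlong V hV (Divisor.correspondence β α hβ hα (Finsupp.single P 1))
      - Divisor.pullbackAlong V hV (Finsupp.single (g₁ • P) 1)
      - ℓ • Divisor.pullbackAlong V hV (Finsupp.single (g₁⁻¹ • P) 1) ∈ locOne O cls := by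
  classical
  have h₁ : ∀ w : Place K F₂, 0 ≤ Divisor.pullbackAlong V hV
      (Divisor.correspondence β α hβ hα (Finsupp.single P 1)) w := by
    intro w
    rw [Divisor.pullbackAlong_apply]
    exact mul_nonneg (Int.natCast_nonneg _) (correspondence_single_nonneg hE P _)
  have h₂ : ∀ w : Place K F₂, 0 ≤ (Divisor.pullbackAlong V hV (Finsupp.single (g₁ • P) 1)
      + ℓ • Divisor.pullbackAlong V hV (Finsupp.single (g₁⁻¹ • P) 1)) w := by
    intro w
    rw [Finsupp.add_apply, Finsupp.smul_apply]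
    exact add_nonneg (pullbackAlong_single_nonneg V hV _ 1 zero_le_one w)
      (nsmul_nonneg (pullbackAlong_single_nonneg V hV _ 1 zero_le_one w) ℓ)
  have h₁R : ∀ w : Place K F₂, Divisor.pullbackAlong V hV
      (Divisor.correspondence β α hβ hα (Finsupp.single P 1)) w ≠ 0 → w ∈ R₂ := by
    intro w hw
    rw [Divisor.pullbackAlong_apply] at hw
    obtain ⟨Q, hQ, hQw⟩ := correspondence_single_apply_ne_zero hE P _ (right_ne_zero_of_mul hw)
    rw [hE.region, ← hQw]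
    exact hE.region_T Q (by rw [Place.mem_fiberAlong.mp hQ]; exact hP)
  have h₂R : ∀ w : Place K F₂, (Divisor.pullbackAlong V hV (Finsupp.single (g₁ • P) 1)
      + ℓ • Divisor.pullbackAlong V hV (Finsupp.single (g₁⁻¹ • P) 1)) w ≠ 0 → w ∈ R₂ := by
    intro w hw
    rw [hE.region]
    by_contra hnot
    apply hw
    have e1 : g₁ • P ≠ w.restrictAlong V hV := fun h => hnot (h ▸ hE.region_smul P hP)
    have e2 : g₁⁻¹ • P ≠ w.restrictAlong V hV := fun h => hnot (h ▸ hE.region_inv_smul P hP)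
    rw [Finsupp.add_apply, Finsupp.smul_apply, Divisor.pullbackAlong_apply,
      Divisor.pullbackAlong_apply, Finsupp.single_apply, Finsupp.single_apply, if_neg e1,
      if_neg e2, mul_zero, smul_zero, add_zero]
  have key := sub_mem_locOne_of_prod_congr hR R₂ hE.region_cls B hB0 hBadd hBsmul hE.B_O
    hE.B_reg hcong _ _ h₁ h₂ h₁R h₂R
    (fun y hy x₀ hx₀ => prod_congr_of_evalHyp hR hE hy hx₀ hP)
  rwa [← sub_sub] at key

end Fermat.Agent.S37.H36
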