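/-
S37 (helper36), package P-G(d) "EVAL", part 3: the concrete instance of `EvalHyp` at the modular
function fields and the Eichler-Shimura relation modulo `locOne` at EVERY place.

Levels: `F₁ = FN N`, `F₂ = FN (N * p₀)` (the J level; `p₀ ∈ {1, 2, 3}` in the application),
`F₃ = FN (N * ℓ)`;  `V = heckeBetaBar Kb N p₀`, `α = heckeAlphaBar Kb N ℓ`,
`β = heckeBetaBar Kb N ℓ`, `O = gaussO A (N * p₀)`, `g₁ = arithmeticGalois _ s` with `s` a
Frobenius element at `A`.

* `frob_congr`, `symm_mem_of_frobenius` : the Frobenius on constants.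
* `evalHyp_IN`, `evalHyp_compl_IN` : `EvalHyp` on the integral region `H46.IN` and on its
  complement, for any base function `x` whose classes cut out the region at the J level.
* `es_all` : `V^* T P - V^*(s P) - ℓ V^*(s⁻¹ P) ∈ locOne` for every place `P` of `F_N`.
* `hes_all` : the `hes` hypothesis of `core_clause`.
-/
import Fermat.Agent.S37.H36.Eval
import Fermat.Agent.S37.H36.RhoMap
import Fermat.Agent.S37.H75.NormValueH36
import Fermat.Agent.S37.H75.ModularFibre
import Fermat.Agent.S37.H71.NormGauss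
import Fermat.Agent.S37.H65.Conj.KronField
import Fermat.Agent.S37.H46.RegionModular
import Fermat.Agent.S37.H81.Region
import Fermat.Agent.S37.H77.GaussGalois

set_option autoImplicit false

open AlgebraicCurve ModularCurve

noncomputable section

namespace Fermat.Agent.S37.H36

open Fermat.Agent.S18 Fermat.Agent.S18.H74

/-- The Frobenius congruence on constants. -/
theorem frob_congr {A : ValuationSubring Kb} {s : Kb ≃ₐ[ℚ] Kb} {ℓ : ℕ}
    (hs : A.IsFrobeniusAt s ℓ) : ∀ a ∈ A, s a - a ^ ℓ ∈ A.nonunits := by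
  intro a ha
  have h1 := hs.smul_residue_eq (IsLocalRing.residue A ⟨a, ha⟩)
  rw [← IsLocalRing.ResidueField.residue_smul, ← map_pow] at h1
  have h2 := (Ideal.Quotient.eq).mp h1
  rw [ValuationSubring.mem_nonunits_iff_exists_mem_maximalIdeal]
  exact ⟨_, h2⟩

/-- The decomposition group stabilises `A`. -/
theorem apply_mem_iff_of_decomposition {A : ValuationSubring Kb} {σ : Kb ≃ₐ[ℚ] Kb}
    (hσ : σ ∈ A.decompositionSubgroup ℚ) (a : Kb) : σ a ∈ A ↔ a ∈ A := by
  obtain ⟨h1, h2⟩ := H77.map_mem_of_mem_decomposition A hσ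
  refine ⟨fun h => ?_, h1 a⟩
  have h3 := h2 _ h
  rwa [AlgEquiv.symm_apply_apply] at h3

section inst

variable (A : ValuationSubring Kb) {ℓ : ℕ} [Fact ℓ.Prime] (N p₀ : ℕ) [NeZero N] [NeZero p₀]
  (hA : A.LiesOverPrime ℓ) (hℓN : ¬ ℓ ∣ N) (hℓNp : ¬ ℓ ∣ N * p₀)
  [HasPrincipalDivisors Kb (FN (N * p₀))] [HasPrincipalDivisors Kb (FN (N * ℓ))]
  (hV : HeckeBetaBarIntegral Kb N p₀) (hα : HeckeAlphaBarIntegral Kb N ℓ)
  (hβ : HeckeBetaBarIntegral Kb N ℓ) {s : Kb ≃ₐ[ℚ] Kb} (hs : A.IsFrobeniusAt s ℓ)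

include hℓN hs in
/-- The fields of `EvalHyp` which do not depend on the region. -/
theorem evalHyp_of_region (R₁ : Set (Place Kb (FN N))) (R₂ : Set (Place Kb (FN (N * p₀))))
    {𝔇 : Type*} (cls : Place Kb (FN (N * p₀)) → 𝔇)
    (hreg : ∀ w : Place Kb (FN (N * p₀)),
      w ∈ R₂ ↔ w.restrictAlong (heckeBetaBar Kb N p₀) hV ∈ R₁)
    (hsmul : ∀ P ∈ R₁, arithmeticGalois (modularFunctionFieldFull N) s • P ∈ R₁)
    (hinv : ∀ P ∈ R₁, (arithmeticGalois (modularFunctionFieldFull N) s)⁻¹ • P ∈ R₁)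
    (hT : ∀ Q : Place Kb (FN (N * ℓ)), Q.restrictAlong (heckeBetaBar Kb N ℓ) hβ ∈ R₁ →
      Q.restrictAlong (heckeAlphaBar Kb N ℓ) hα ∈ R₁)
    (hcls : ∀ w ∈ R₂, ∀ w' : Place Kb (FN (N * p₀)), cls w' = cls w → w' ∈ R₂) :
    EvalHyp A (H66.gaussO A (N * p₀) hA hℓNp) cls (heckeBetaBar Kb N p₀) hV
      (heckeAlphaBar Kb N ℓ) (heckeBetaBar Kb N ℓ) hα hβ
      (arithmeticGalois (modularFunctionFieldFull N) s) ℓ R₁ R₂
      (H81.regOn (H66.gaussO A (N * p₀) hA hℓNp) R₂) where
  normV := H75.normValueAlong_beta N p₀ hV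
  normβ := H75.normValueAlong_beta N ℓ hβ
  normInt := fun _ hg =>
    H65.beta_mem_gaussO A N p₀ hA hℓN hℓNp (H71.norm_mem_gaussO N p₀ A hA hℓN hℓNp hg)
  kron := H65.kron_field A N p₀ hA hℓN hℓNp hs
  region := hreg
  region_smul := hsmul
  region_inv_smul := hinv
  region_T := hT
  region_cls := hcls
  B_O := H81.regOn_subset
  B_reg := H81.regOn_reg
  base_symm_mem := fun a ha =>
    (H77.map_mem_of_mem_decomposition A hs.mem_decompositionSubgroup).2 a ha
  frob := frob_congr hs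
  inertia_one := H75.inertiaDegAlong_alpha N ℓ hα
  exists_over := H75.exists_over_beta N p₀ hV

include hℓN hs in
/-- `EvalHyp` on the integral region. -/
theorem evalHyp_IN (x : FN (N * p₀)) (T : Set (Option (IsLocalRing.ResidueField A)))
    (hI : H46.IN A (N * p₀) = H81.region A x T) :
    EvalHyp A (H66.gaussO A (N * p₀) hA hℓNp) (H38.cls A x) (heckeBetaBar Kb N p₀) hV
      (heckeAlphaBar Kb N ℓ) (heckeBetaBar Kb N ℓ) hα hβ
      (arithmeticGalois (modularFunctionFieldFull N) s) ℓ (H46.IN A N) (H46.IN A (N * p₀))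
      (H81.regOn (H66.gaussO A (N * p₀) hA hℓNp) (H46.IN A (N * p₀))) := by
  have hd := hs.mem_decompositionSubgroup
  have hd' : s⁻¹ ∈ A.decompositionSubgroup ℚ := (A.decompositionSubgroup ℚ).inv_mem hd
  refine evalHyp_of_region A N p₀ hA hℓN hℓNp hV hα hβ hs _ _ _
    (fun w => (H46.restrictAlong_beta_mem_IN_iff A N p₀ hV w).symm)
    (fun P hP => (H46.smul_mem_IN_iff A N s
      (apply_mem_iff_of_decomposition hd) P).mpr hP)
    (fun P hP => ?_)
    (fun Q hQ => (H46.restrictAlong_alpha_iff_beta A N ℓ hα hβ Q).mpr hQ) ?_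
  · rw [← map_inv]
    exact (H46.smul_mem_IN_iff A N s⁻¹
      (apply_mem_iff_of_decomposition hd') P).mpr hP
  · rw [hI]
    exact H81.region_cls

include hℓN hs in
/-- `EvalHyp` on the complement of the integral region. -/
theorem evalHyp_compl_IN (x : FN (N * p₀)) (T' : Set (Option (IsLocalRing.ResidueField A)))
    (hC : (H46.IN A (N * p₀))ᶜ = H81.region A x T') :
    EvalHyp A (H66.gaussO A (N * p₀) hA hℓNp) (H38.cls A x) (heckeBetaBar Kb N p₀) hV
      (heckeAlphaBar Kb N ℓ) (heckeBetaBar Kb N ℓ) hα hβ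
      (arithmeticGalois (modularFunctionFieldFull N) s) ℓ (H46.IN A N)ᶜ (H46.IN A (N * p₀))ᶜ
      (H81.regOn (H66.gaussO A (N * p₀) hA hℓNp) (H46.IN A (N * p₀))ᶜ) := by
  have hd := hs.mem_decompositionSubgroup
  have hd' : s⁻¹ ∈ A.decompositionSubgroup ℚ := (A.decompositionSubgroup ℚ).inv_mem hd
  refine evalHyp_of_region A N p₀ hA hℓN hℓNp hV hα hβ hs _ _ _
    (fun w => not_congr (H46.restrictAlong_beta_mem_IN_iff A N p₀ hV w).symm)
    (fun P hP h => hP ((H46.smul_mem_IN_iff A N s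
      (apply_mem_iff_of_decomposition hd) P).mp h))
    (fun P hP h => hP ?_)
    (fun Q hQ h => hQ ((H46.restrictAlong_alpha_iff_beta A N ℓ hα hβ Q).mp h)) ?_
  · rw [← map_inv] at h
    exact (H46.smul_mem_IN_iff A N s⁻¹
      (apply_mem_iff_of_decomposition hd') P).mp h
  · rw [hC]
    exact H81.region_cls

include hℓN hs in
/-- **Eichler-Shimura modulo `locOne` at every place** of `F_N`:
`V^* T P - V^*(s P) - ℓ V^*(s⁻¹ P) ∈ locOne`, provided the integral region of the J level and its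
complement are cut out by proper sets `T`, `T'` of classes of the base function `x` of an explicit
`Setup`. -/
theorem es_all (x : FN (N * p₀)) (T T' : Set (Option (IsLocalRing.ResidueField A)))
    (hI : H46.IN A (N * p₀) = H81.region A x T)
    (hC : (H46.IN A (N * p₀))ᶜ = H81.region A x T')
    (hT : T ≠ Set.univ) (hT' : T' ≠ Set.univ)
    (hS : H74.Setup Kb A (FN (N * p₀)) (H66.gaussO A (N * p₀) hA hℓNp) x)
    (hR : RedHyp A (H66.gaussO A (N * p₀) hA hℓNp) (H38.cls A x))
    (P : Place Kb (FN N)) :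
    Divisor.pullbackAlong (heckeBetaBar Kb N p₀) hV
        (Divisor.correspondence (heckeBetaBar Kb N ℓ) (heckeAlphaBar Kb N ℓ) hβ hα
          (Finsupp.single P 1))
      - Divisor.pullbackAlong (heckeBetaBar Kb N p₀) hV
          (Finsupp.single (arithmeticGalois (modularFunctionFieldFull N) s • P) 1)
      - ℓ • Divisor.pullbackAlong (heckeBetaBar Kb N p₀) hV
          (Finsupp.single ((arithmeticGalois (modularFunctionFieldFull N) s)⁻¹ • P) 1)
      ∈ locOne (H66.gaussO A (N * p₀) hA hℓNp) (H38.cls A x) := by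
  by_cases hP : P ∈ H46.IN A N
  · have hcong := H81.cong_of_setup hS hR hT
    rw [← hI] at hcong
    exact es_place hR (evalHyp_IN A N p₀ hA hℓN hℓNp hV hα hβ hs x T hI)
      (H81.zero_mem_regOn _) H81.add_mem_regOn (H81.smul_mem_regOn hR.mem_iff) hcong hP
  · have hcong := H81.cong_of_setup hS hR hT'
    rw [← hC] at hcong
    exact es_place hR (evalHyp_compl_IN A N p₀ hA hℓN hℓNp hV hα hβ hs x T' hC)
      (H81.zero_mem_regOn _) H81.add_mem_regOn (H81.smul_mem_regOn hR.mem_iff) hcong hP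

include hℓN hs in
/-- **The `hes` hypothesis of `core_clause`** for `pull = V^*` and `Tdiv = α_* β^*`. -/
theorem hes_all (x : FN (N * p₀)) (T T' : Set (Option (IsLocalRing.ResidueField A)))
    (hI : H46.IN A (N * p₀) = H81.region A x T)
    (hC : (H46.IN A (N * p₀))ᶜ = H81.region A x T')
    (hT : T ≠ Set.univ) (hT' : T' ≠ Set.univ)
    (hS : H74.Setup Kb A (FN (N * p₀)) (H66.gaussO A (N * p₀) hA hℓNp) x)
    (hR : RedHyp A (H66.gaussO A (N * p₀) hA hℓNp) (H38.cls A x)) :
    ∀ P : Place Kb (laurentBaseChange Kb (modularFunctionFieldFull N)),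
      Divisor.pullbackAlong (heckeBetaBar Kb N p₀) hV
          (Divisor.correspondence (heckeBetaBar Kb N ℓ) (heckeAlphaBar Kb N ℓ) hβ hα
            (Finsupp.single P 1))
        - Divisor.pullbackAlong (heckeBetaBar Kb N p₀) hV
            (Finsupp.single (arithmeticGalois (modularFunctionFieldFull N) s • P) 1)
        - ℓ • Divisor.pullbackAlong (heckeBetaBar Kb N p₀) hV
            (Finsupp.single ((arithmeticGalois (modularFunctionFieldFull N) s)⁻¹ • P) 1)
        ∈ redSub (H66.gaussO A (N * p₀) hA hℓNp) (H38.cls A x) := fun P =>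
  AddSubgroup.mem_sup_right
    (es_all A N p₀ hA hℓN hℓNp hV hα hβ hs x T T' hI hC hT hT' hS hR P)

end inst

end Fermat.Agent.S37.H36
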