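/-
S37 (helper36), input (I2) of helper77's P-H skeleton, in its exact shape: `EvalHyp` on the
integral region `H46.IN` and on its complement, for an arbitrary presentation `R₂` of the region
at the J level, arbitrary classes `cls` (with `R₂` a union of classes) and an arbitrary set `B` of
test functions (Gauss-integral, regular on `R₂`).
-/
import Fermat.Agent.S37.H36.Inst

set_option autoImplicit false

open AlgebraicCurve ModularCurve

noncomputable section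

namespace Fermat.Agent.S37.H36

open Fermat.Agent.S18 Fermat.Agent.S18.H74

section

variable (N q : ℕ) [NeZero N] [NeZero q] {ℓ : ℕ} [Fact ℓ.Prime] [NeZero ℓ]
  (A : ValuationSubring Kb) (hA : A.LiesOverPrime ℓ) (hℓN : ¬ ℓ ∣ N) (hℓM : ¬ ℓ ∣ N * q)
  [HasPrincipalDivisors Kb (FN (N * q))] [HasPrincipalDivisors Kb (FN (N * ℓ))]
  {s : Kb ≃ₐ[ℚ] Kb} (hs : A.IsFrobeniusAt s ℓ)
  (hV : (heckeBetaBar Kb N q).toRingHom.IsIntegral)
  (hα : (heckeAlphaBar Kb N ℓ).toRingHom.IsIntegral)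
  (hβ : (heckeBetaBar Kb N ℓ).toRingHom.IsIntegral)

include hℓN hs in
/-- All fields of `EvalHyp` for arbitrary regions and test functions. -/
theorem evalHyp_general (R₁ : Set (Place Kb (FN N))) (R₂ : Set (Place Kb (FN (N * q))))
    (B : Set (FN (N * q))) {𝔇 : Type*} (cls : Place Kb (FN (N * q)) → 𝔇)
    (hreg : ∀ w : Place Kb (FN (N * q)),
      w ∈ R₂ ↔ w.restrictAlong (heckeBetaBar Kb N q) hV ∈ R₁)
    (hsmul : ∀ P ∈ R₁, arithmeticGalois (modularFunctionFieldFull N) s • P ∈ R₁)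
    (hinv : ∀ P ∈ R₁, (arithmeticGalois (modularFunctionFieldFull N) s)⁻¹ • P ∈ R₁)
    (hT : ∀ Q : Place Kb (FN (N * ℓ)), Q.restrictAlong (heckeBetaBar Kb N ℓ) hβ ∈ R₁ →
      Q.restrictAlong (heckeAlphaBar Kb N ℓ) hα ∈ R₁)
    (hcls : ∀ w ∈ R₂, ∀ w' : Place Kb (FN (N * q)), cls w' = cls w → w' ∈ R₂)
    (hBO : ∀ y ∈ B, y ∈ H66.gaussO A (N * q) hA hℓM)
    (hBreg : ∀ y ∈ B, ∀ w ∈ R₂, 0 ≤ w.ord y) :
    EvalHyp A (H66.gaussO A (N * q) hA hℓM) cls (heckeBetaBar Kb N q) hV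
      (heckeAlphaBar Kb N ℓ) (heckeBetaBar Kb N ℓ) hα hβ
      (arithmeticGalois (modularFunctionFieldFull N) s) ℓ R₁ R₂ B where
  normV := H75.normValueAlong_beta N q hV
  normβ := H75.normValueAlong_beta N ℓ hβ
  normInt := fun _ hg =>
    H65.beta_mem_gaussO A N q hA hℓN hℓM (H71.norm_mem_gaussO N q A hA hℓN hℓM hg)
  kron := H65.kron_field A N q hA hℓN hℓM hs
  region := hreg
  region_smul := hsmul
  region_inv_smul := hinv
  region_T := hT
  region_cls := hcls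
  B_O := hBO
  B_reg := hBreg
  base_symm_mem := fun a ha =>
    (H77.map_mem_of_mem_decomposition A hs.mem_decompositionSubgroup).2 a ha
  frob := frob_congr hs
  inertia_one := H75.inertiaDegAlong_alpha N ℓ hα
  exists_over := H75.exists_over_beta N q hV

include hℓN hs in
/-- **(I2)** `EvalHyp` on the integral region. -/
theorem evalHyp_IN_of {𝔇 : Type*} (cls : Place Kb (FN (N * q)) → 𝔇)
    (R₂ : Set (Place Kb (FN (N * q)))) (B : Set (FN (N * q)))
    (hR₂ : ∀ w, w ∈ R₂ ↔ w ∈ H46.IN A (N * q))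
    (hcls : ∀ w ∈ R₂, ∀ w' : Place Kb (FN (N * q)), cls w' = cls w → w' ∈ R₂)
    (hBO : ∀ y ∈ B, y ∈ H66.gaussO A (N * q) hA hℓM)
    (hBreg : ∀ y ∈ B, ∀ w ∈ R₂, 0 ≤ w.ord y) :
    EvalHyp A (H66.gaussO A (N * q) hA hℓM) cls (heckeBetaBar Kb N q) hV
      (heckeAlphaBar Kb N ℓ) (heckeBetaBar Kb N ℓ) hα hβ
      (arithmeticGalois (modularFunctionFieldFull N) s) ℓ (H46.IN A N) R₂ B := by
  have hd := hs.mem_decompositionSubgroup
  have hd' : s⁻¹ ∈ A.decompositionSubgroup ℚ := (A.decompositionSubgroup ℚ).inv_mem hd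
  refine evalHyp_general N q A hA hℓN hℓM hs hV hα hβ _ _ _ _
    (fun w => (hR₂ w).trans (H46.restrictAlong_beta_mem_IN_iff A N q hV w).symm)
    (fun P hP => (H46.smul_mem_IN_iff A N s (apply_mem_iff_of_decomposition hd) P).mpr hP)
    (fun P hP => ?_)
    (fun Q hQ => (H46.restrictAlong_alpha_iff_beta A N ℓ hα hβ Q).mpr hQ) hcls hBO hBreg
  rw [← map_inv]
  exact (H46.smul_mem_IN_iff A N s⁻¹ (apply_mem_iff_of_decomposition hd') P).mpr hP

include hℓN hs in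
/-- **(I2')** `EvalHyp` on the complement of the integral region. -/
theorem evalHyp_compl_of {𝔇 : Type*} (cls : Place Kb (FN (N * q)) → 𝔇)
    (R₂ : Set (Place Kb (FN (N * q)))) (B : Set (FN (N * q)))
    (hR₂ : ∀ w, w ∈ R₂ ↔ w ∉ H46.IN A (N * q))
    (hcls : ∀ w ∈ R₂, ∀ w' : Place Kb (FN (N * q)), cls w' = cls w → w' ∈ R₂)
    (hBO : ∀ y ∈ B, y ∈ H66.gaussO A (N * q) hA hℓM)
    (hBreg : ∀ y ∈ B, ∀ w ∈ R₂, 0 ≤ w.ord y) :
    EvalHyp A (H66.gaussO A (N * q) hA hℓM) cls (heckeBetaBar Kb N q) hV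
      (heckeAlphaBar Kb N ℓ) (heckeBetaBar Kb N ℓ) hα hβ
      (arithmeticGalois (modularFunctionFieldFull N) s) ℓ (H46.IN A N)ᶜ R₂ B := by
  have hd := hs.mem_decompositionSubgroup
  have hd' : s⁻¹ ∈ A.decompositionSubgroup ℚ := (A.decompositionSubgroup ℚ).inv_mem hd
  refine evalHyp_general N q A hA hℓN hℓM hs hV hα hβ _ _ _ _
    (fun w => (hR₂ w).trans (not_congr (H46.restrictAlong_beta_mem_IN_iff A N q hV w).symm))
    (fun P hP h => hP ((H46.smul_mem_IN_iff A N s (apply_mem_iff_of_decomposition hd) P).mp h))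
    (fun P hP h => hP ?_)
    (fun Q hQ h => hQ ((H46.restrictAlong_alpha_iff_beta A N ℓ hα hβ Q).mp h)) hcls hBO hBreg
  rw [← map_inv] at h
  exact (H46.smul_mem_IN_iff A N s⁻¹ (apply_mem_iff_of_decomposition hd') P).mp h

end

end Fermat.Agent.S37.H36
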